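import Fermat.Agent.ML.Rho.Loc
import Fermat.Agent.RIB.Flat.Fin
import Fermat.Agent.S56.Flat.FKAbs

/-!
# ML / Rho / Flat : (L4) the tangent vectors of `R` are flat at `p`

`galAct G V` : the action of a subgroup `G ≤ G_ℚ` on a `G_ℚ`-module `V`, as an explicit homomorphism (language of `S56/Flat`).

* `hasFlat_galAct_prod` : `V₁`, `V₂` flat `⟹ V₁ × V₂` flat;
* `hasFlat_galAct_of_injective` : sub-`G`-modules of flat modules are flat;
* `hasFlat_galAct_of_jac` : a finite `G_ℚ`-module embedded in `J₀(L)[p^n]`, `p ∤ L`, is flat on the inertia group at `p`;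
* `RhoAct.hasFlat_mapRep` : `RhoAct ρ Φ`, `V` finite and flat `⟹` the push-forward of `ρ` along ANY ring hom `φ : R → B`, `B` finite, is flat;
* `RhoAct.hasFlat_pushRep` : the hypothesis `hflat` of `RhoAct.genHypFlat`;
* `RhoAct.flatLift_pushRep` : `FlatLift p rbar (pushRep φ ρ)`.
-/

set_option autoImplicit false

noncomputable section

open ModularCurve ExtCitation

namespace Fermat.Agent.ML

open Fermat.Agent.S56 Fermat.Agent.S56.Flat Fermat.Agent.S56.Font Fermat.Agent.S56.Gen
  Fermat.Agent.RIB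
open CFT (Qb)

/-- the action of a subgroup of `G_ℚ` on a `G_ℚ`-module. -/
def galAct (G : Subgroup GQ) (V : Type) [AddCommGroup V] [DistribMulAction GQ V] :
    ↥G →* AddMonoid.End V :=
  (DistribMulAction.toAddMonoidEnd GQ V).comp G.subtype

@[simp] theorem galAct_apply (G : Subgroup GQ) (V : Type) [AddCommGroup V] [DistribMulAction GQ V]
    (g : ↥G) (v : V) : galAct G V g v = (g : GQ) • v := rfl

section Abs

variable {Γ₀ : Type} [LinearOrderedCommGroupWithZero Γ₀] {v : Valuation Qb Γ₀} {G : Subgroup GQ}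
  {V V₁ V₂ : Type} [AddCommGroup V] [DistribMulAction GQ V] [AddCommGroup V₁]
  [DistribMulAction GQ V₁] [AddCommGroup V₂] [DistribMulAction GQ V₂]

theorem hasFlat_galAct_prod [Finite V₁] [Finite V₂] (h₁ : HasFlat v (galAct G V₁))
    (h₂ : HasFlat v (galAct G V₂)) : HasFlat v (galAct G (V₁ × V₂)) :=
  HasFlat.prod h₁ h₂

theorem hasFlat_galAct_of_injective (j : V₁ →+ V₂) (hj : Function.Injective j)
    (hG : ∀ (g : GQ) (x : V₁), j (g • x) = g • j x) (h : HasFlat v (galAct G V₂)) :
    HasFlat v (galAct G V₁) :=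
  HasFlat.of_injective (α := galAct G V₂) (α' := galAct G V₁) j hj (fun g x => hG g x) h

theorem hasFlat_galAct_of_surjective [Finite V₁] (j : V₁ →+ V₂) (hj : Function.Surjective j)
    (hG : ∀ (g : GQ) (x : V₁), j (g • x) = g • j x) (h : HasFlat v (galAct G V₁)) :
    HasFlat v (galAct G V₂) :=
  HasFlat.of_surjective (α := galAct G V₁) j hj (fun g x => hG g x) h

variable {R : Type} [CommRing R] [Module R V] {ρ : GQ →* M2 R} {Φ : M2 R →ₐ[R] Module.End R V}

/-- **(L4)** push-forward along any ring hom to a finite ring. -/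
theorem RhoAct.hasFlat_mapRep [Finite V] (H : RhoAct ρ Φ) (hV : HasFlat v (galAct G V))
    {B : Type} [CommRing B] [Finite B] (φ : R →+* B) :
    HasFlat v (matAct G (S53.mapRep φ ρ)) := by
  let _ : Module (M2 R) V := Module.compHom V (Φ : M2 R →+* Module.End R V)
  have hsm : ∀ (X : M2 R) (w : V), X • w = Φ X w := fun _ _ => rfl
  have hsc : ∀ (t : R) (w : V), (Matrix.scalar (Fin 2) t) • w = t • w := by
    intro t w
    have h1 : Matrix.scalar (Fin 2) t = algebraMap R (M2 R) t := rfl
    rw [hsm, h1, AlgHom.commutes]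
    rfl
  refine hasFlat_matAct_mapRep_finite G ρ (W := V)
    (fun t ht => H.faithful t fun w => by rw [← hsc]; exact ht w) ?_ φ
  have e : modAct V (ρ.comp G.subtype) = galAct G V := by
    ext g w
    show Φ (ρ g) w = (g : GQ) • w
    exact H.act g w
  rw [e]
  exact hV

end Abs

section AtP

variable {p : ℕ} [Fact p.Prime]

/-- a finite `G_ℚ`-module embedded in `J₀(L)[p^n]`, `p ∤ L`, is flat on the inertia group at `p`. -/
theorem hasFlat_galAct_of_jac {X : Type} [AddCommGroup X] [DistribMulAction GQ X] (L : ℕ) [NeZero L]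
    (hpL : ¬ p ∣ L) (n : ℕ) (ι : X →+ JZero L) (hι : Function.Injective ι)
    (hιG : ∀ (g : GQ) (x : X), ι (g • x) = g • ι x) (hn : ∀ x : X, p ^ n • ι x = 0) :
    HasFlat (Ap p).valuation (galAct (Ip p) X) := by
  have hp : p.Prime := Fact.out
  let j : X →+ (Unit → ↥(Submodule.torsionBy ℤ (JZero L) ((p : ℤ) ^ n))) :=
    { toFun := fun x _ => ⟨ι x, by
        rw [Submodule.mem_torsionBy_iff]
        have := hn x
        rw [← natCast_zsmul] at this
        push_cast at this
        exact this⟩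
      map_zero' := by funext _; exact Subtype.ext (map_zero ι)
      map_add' := fun x y => by funext _; exact Subtype.ext (map_add ι x y) }
  have hj : Function.Injective j := fun a b h => hι (by
    have := congrArg (fun f => ((f () : ↥(Submodule.torsionBy ℤ (JZero L) ((p : ℤ) ^ n))) : JZero L)) h
    exact this)
  exact hasFlat_of_embedding hp (liesOverPrime_primeLocalPlace (pPrime p)) L hpL n
    (DistribMulAction.toAddMonoidEnd GQ X) Unit j hj (fun σ w _ => hιG σ w)

variable {k : Type} [Field k] [Finite k] {Λ R V : Type} [CommRing Λ] [Algebra Λ k] [CommRing R]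
  [Algebra Λ R] [AddCommGroup V] [Module R V] [DistribMulAction GQ V] [Finite V]
  {ρ : GQ →* M2 R} {Φ : M2 R →ₐ[R] Module.End R V}

/-- **(L4)** the hypothesis `hflat` of `RhoAct.genHypFlat` : EVERY `Λ`-algebra hom `R → k[ε]` gives a flat action. -/
theorem RhoAct.hasFlat_pushRep (H : RhoAct ρ Φ) (hV : HasFlat (Ap p).valuation (galAct (Ip p) V))
    (φ : R →ₐ[Λ] DualNumber k) :
    HasFlat (Ap p).valuation (matAct (Ip p) (pushRep φ ρ)) :=
  H.hasFlat_mapRep hV (φ : R →+* DualNumber k)

/-- **(L4)** `FlatLift`. -/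
theorem RhoAct.flatLift_pushRep (H : RhoAct ρ Φ)
    (hV : HasFlat (Ap p).valuation (galAct (Ip p) V)) {rbar : GQ →* M2 k} {π : R →ₐ[Λ] k}
    (hlift : ∀ σ, (ρ σ).map π = rbar σ) (hdet : ∀ σ, ∃ c : Λ, (ρ σ).det = algebraMap Λ R c)
    (hcont : GaloisFactorsThroughFiniteLevel ρ)
    {φ : R →ₐ[Λ] DualNumber k} (hφ : ∀ a, (φ a).fst = π a) :
    FlatLift p rbar (pushRep φ ρ) where
  lift := isLift_pushRep hlift hφ
  det := det_pushRep hlift hdet φ
  cont := factors_pushRep hcont φ
  flat := H.hasFlat_pushRep hV φ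

end AtP

end Fermat.Agent.ML
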