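import Fermat.Agent.RIB.Star
import Fermat.Agent.S56.Gen.MainW

/-!
# ML / Rho / Loc : local conditions for `ρ` read off from the action on a faithful module

`R` a commutative ring, `V` an `R`-module with an action of `G_ℚ`, `ρ : G_ℚ → M₂(R)`, `Φ : M₂(R) → End_R V`.

* `RhoAct ρ Φ` : `Φ (ρ g) v = g • v` and `Φ` is injective  (outputs 6, 7 of `Rho.exists_rho_tors`).
* (L0) `RhoAct.sum_eq_zero` : every identity of the group algebra which holds on `V` holds for `ρ`; `eq_of_act`, `eq_one`.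
* (L1) `cont`, `lev`.
* (L2) `sq_zero_of_unip`, `trace_eq_two_of_unip`, `charpoly_of_unip`.
* (L3) `trace_smul`, `z_smul`, `tame_rel`.
* (L6) the dictionary ideals of `R` / submodules of `V` : `smul_eq_of_entries`, `entries_smul_eq_zero`, `mem_tors_entries_iff`.
* (ASM) `RhoAct.genHyp`, `RhoAct.genHypW`, `RhoAct.genHypFlat`.
-/

set_option autoImplicit false

noncomputable section

open ExtCitation Polynomial

namespace Fermat.Agent.ML

open Fermat.Agent.S56 Fermat.Agent.S56.Gen Fermat.Agent.RIB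
open CFT (levS decomp Qb)

/-- the output of (RHO) which is used for local conditions. -/
structure RhoAct {R V : Type} [CommRing R] [AddCommGroup V] [Module R V] [DistribMulAction GQ V]
    (ρ : GQ →* Matrix (Fin 2) (Fin 2) R)
    (Φ : Matrix (Fin 2) (Fin 2) R →ₐ[R] Module.End R V) : Prop where
  act : ∀ (g : GQ) (v : V), Φ (ρ g) v = g • v
  inj : ∀ X : Matrix (Fin 2) (Fin 2) R, (∀ v : V, Φ X v = 0) → X = 0

namespace RhoAct

section basic

variable {R V : Type} [CommRing R] [AddCommGroup V] [Module R V] [DistribMulAction GQ V]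
  {ρ : GQ →* Matrix (Fin 2) (Fin 2) R} {Φ : Matrix (Fin 2) (Fin 2) R →ₐ[R] Module.End R V}

theorem eq_of_phi (H : RhoAct ρ Φ) {X Y : Matrix (Fin 2) (Fin 2) R} (h : ∀ v : V, Φ X v = Φ Y v) :
    X = Y := by
  rw [← sub_eq_zero]
  refine H.inj _ fun v => ?_
  rw [map_sub, LinearMap.sub_apply, h v, sub_self]

theorem faithful (H : RhoAct ρ Φ) (x : R) (hx : ∀ v : V, x • v = 0) : x = 0 := by
  have h1 : x • (1 : Matrix (Fin 2) (Fin 2) R) = 0 := H.inj _ fun v => by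
    rw [map_smul, map_one, LinearMap.smul_apply, Module.End.one_apply, hx]
  have := congrFun (congrFun h1 0) 0
  simpa using this

/-- **(L0)** every identity of the group algebra `R[G_ℚ]` which holds on `V` holds for `ρ`. -/
theorem sum_eq_zero (H : RhoAct ρ Φ) {ι : Type*} (s : Finset ι) (c : ι → R) (g : ι → GQ)
    (h : ∀ v : V, ∑ i ∈ s, c i • g i • v = 0) : ∑ i ∈ s, c i • ρ (g i) = 0 := by
  refine H.inj _ fun v => ?_
  rw [map_sum, LinearMap.sum_apply, ← h v]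
  refine Finset.sum_congr rfl fun i _ => ?_
  rw [map_smul, LinearMap.smul_apply, H.act]

theorem eq_of_act (H : RhoAct ρ Φ) {g h : GQ} (hgh : ∀ v : V, g • v = h • v) : ρ g = ρ h :=
  H.eq_of_phi fun v => by rw [H.act, H.act, hgh]

/-- **(L1)** -/
theorem eq_one (H : RhoAct ρ Φ) {g : GQ} (hg : ∀ v : V, g • v = v) : ρ g = 1 :=
  H.eq_of_phi fun v => by rw [H.act, hg, map_one, Module.End.one_apply]

theorem eq_smul_one (H : RhoAct ρ Φ) {g : GQ} {c : R} (hg : ∀ v : V, g • v = c • v) :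
    ρ g = c • (1 : Matrix (Fin 2) (Fin 2) R) :=
  H.eq_of_phi fun v => by
    rw [H.act, hg, map_smul, map_one, LinearMap.smul_apply, Module.End.one_apply]

theorem phi_sub_one (H : RhoAct ρ Φ) (g : GQ) (v : V) : Φ (ρ g - 1) v = g • v - v := by
  rw [map_sub, map_one, LinearMap.sub_apply, H.act, Module.End.one_apply]

theorem cont (H : RhoAct ρ Φ)
    (hV : ∃ F : IntermediateField ℚ (AlgebraicClosure ℚ), FiniteDimensional ℚ F ∧
      ∀ σ : GQ, (∀ x ∈ F, σ x = x) → ∀ v : V, σ • v = v) :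
    GaloisFactorsThroughFiniteLevel ρ := by
  obtain ⟨F, hF, h⟩ := hV
  exact ⟨F, hF, fun σ hσ => H.eq_one (h σ hσ)⟩

/-- **(L1)** the field `lev` of (GEN). -/
theorem lev (H : RhoAct ρ Φ)
    (hV : ∃ F : IntermediateField ℚ (AlgebraicClosure ℚ), FiniteDimensional ℚ F ∧
      ∀ σ : GQ, (∀ x ∈ F, σ x = x) → ∀ v : V, σ • v = v)
    (T : Finset Nat.Primes)
    (hur : ∀ q : Nat.Primes, q ∉ T → ∀ A : ValuationSubring Qb, A.LiesOverPrime (q : ℕ) →
      ∀ σ ∈ A.inertiaSubgroupIn ℚ, ∀ v : V, σ • v = v) :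
    ∃ U ∈ (levS T).carrier, ∀ s ∈ U, ρ s = 1 :=
  exists_level_of_unram ρ (H.cont hV) T fun q hq A hA σ hσ => H.eq_one (hur q hq A hA σ hσ)

/-- **(L2)** -/
theorem sq_zero_of_unip (H : RhoAct ρ Φ) {g : GQ}
    (hg : ∀ v : V, g • (g • v - v) = g • v - v) : (ρ g - 1) * (ρ g - 1) = 0 := by
  refine H.inj _ fun v => ?_
  rw [map_mul, Module.End.mul_apply, H.phi_sub_one, H.phi_sub_one, hg, sub_self]

/-- `(A - 1)² = 0`, `det A = 1`, `tr A` a unit `⟹ tr A = 2`. -/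
theorem _root_.Fermat.Agent.ML.trace_eq_two_of_sq_zero {A : Matrix (Fin 2) (Fin 2) R}
    (h : (A - 1) * (A - 1) = 0) (hdet : A.det = 1) (hu : IsUnit A.trace) : A.trace = 2 := by
  have h00 := congrFun (congrFun h 0) 0
  have h11 := congrFun (congrFun h 1) 1
  simp only [Matrix.mul_apply, Fin.sum_univ_two, Matrix.sub_apply, Matrix.one_apply_eq,
    Matrix.one_apply_ne (show (0 : Fin 2) ≠ 1 by decide),
    Matrix.one_apply_ne (show (1 : Fin 2) ≠ 0 by decide), sub_zero, Matrix.zero_apply] at h00 h11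
  rw [Matrix.det_fin_two] at hdet
  have key : A.trace * (A.trace - 2) = 0 := by
    rw [Matrix.trace_fin_two]
    linear_combination h00 + h11 + 2 * hdet
  have := hu.mul_right_eq_zero.1 key
  exact sub_eq_zero.1 this

theorem _root_.Fermat.Agent.ML.charpoly_eq_of_trace_det {A : Matrix (Fin 2) (Fin 2) R}
    (htr : A.trace = 2) (hdet : A.det = 1) : A.charpoly = (X - 1) ^ 2 := by
  nontriviality R
  rw [Matrix.charpoly_fin_two, htr, hdet]
  simp only [map_ofNat, map_one]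
  ring

/-- **(L2)** -/
theorem charpoly_of_unip (H : RhoAct ρ Φ) {g : GQ}
    (hg : ∀ v : V, g • (g • v - v) = g • v - v) (hdet : (ρ g).det = 1)
    (hu : IsUnit (ρ g).trace) : (ρ g).charpoly = (X - 1) ^ 2 :=
  charpoly_eq_of_trace_det (trace_eq_two_of_sq_zero (H.sq_zero_of_unip hg) hdet hu) hdet

theorem _root_.Fermat.Agent.ML.add_adjugate_two (A : Matrix (Fin 2) (Fin 2) R) :
    A + A.adjugate = A.trace • (1 : Matrix (Fin 2) (Fin 2) R) := by
  rw [Matrix.adjugate_fin_two, Matrix.trace_fin_two]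
  ext i j
  fin_cases i <;> fin_cases j <;> simp [add_comm]

theorem adjugate_eq (g : GQ) : (ρ g).adjugate = (ρ g).det • ρ g⁻¹ := by
  have h1 : ρ g⁻¹ * ρ g = 1 := by rw [← map_mul, inv_mul_cancel, map_one]
  calc (ρ g).adjugate = (ρ g⁻¹ * ρ g) * (ρ g).adjugate := by rw [h1, one_mul]
    _ = ρ g⁻¹ * (ρ g * (ρ g).adjugate) := by rw [mul_assoc]
    _ = (ρ g).det • ρ g⁻¹ := by rw [Matrix.mul_adjugate, Matrix.mul_smul, mul_one]

/-- **(L3)** Cayley-Hamilton on `V`. -/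
theorem trace_smul (H : RhoAct ρ Φ) (g : GQ) (v : V) :
    (ρ g).trace • v = g • v + (ρ g).det • g⁻¹ • v := by
  have h1 : (ρ g).trace • v = Φ ((ρ g).trace • (1 : Matrix (Fin 2) (Fin 2) R)) v := by
    rw [map_smul, map_one, LinearMap.smul_apply, Module.End.one_apply]
  rw [h1, ← add_adjugate_two, adjugate_eq, map_add, map_smul, LinearMap.add_apply,
    LinearMap.smul_apply, H.act, H.act]

/-- **(L3)** `z_g = tr ρ(g) - 2` acts as `g + g⁻¹ - 2`. -/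
theorem z_smul (H : RhoAct ρ Φ) {g : GQ} (hdet : (ρ g).det = 1) (v : V) :
    ((ρ g).trace - 2) • v = g • v + g⁻¹ • v - (2 : ℕ) • v := by
  rw [sub_smul, H.trace_smul, hdet, one_smul, ofNat_smul_eq_nsmul R 2 v]

/-- **(L3)** the tame relation. -/
theorem tame_rel (H : RhoAct ρ Φ) {φ τ : GQ} {l : ℕ}
    (h : ∀ v : V, (φ * τ * φ⁻¹) • v = (τ ^ l) • v) : ρ φ * ρ τ = ρ τ ^ l * ρ φ := by
  have h1 : ρ (φ * τ * φ⁻¹) = ρ (τ ^ l) := H.eq_of_act h
  have h2 : ρ φ⁻¹ * ρ φ = 1 := by rw [← map_mul, inv_mul_cancel, map_one]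
  rw [map_mul, map_mul, map_pow] at h1
  calc ρ φ * ρ τ = ρ φ * ρ τ * (ρ φ⁻¹ * ρ φ) := by rw [h2, mul_one]
    _ = (ρ φ * ρ τ * ρ φ⁻¹) * ρ φ := by rw [mul_assoc, mul_assoc, mul_assoc]
    _ = ρ τ ^ l * ρ φ := by rw [h1]

/-! ### (L6) ideals of `R` and submodules of `V` -/

theorem smul_mem_tors (H : RhoAct ρ Φ) (I : Ideal R) (g : GQ) {v : V} (hv : v ∈ tors V I) :
    g • v ∈ tors V I := by
  rw [← H.act]
  exact map_mem_tors Φ I _ hv

/-- if the entries of `ρ g - c` lie in `I` then `g = c` on `V[I]`. -/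
theorem smul_eq_of_entries (H : RhoAct ρ Φ) {I : Ideal R} {g : GQ} {c : R}
    (h : ∀ i j, (ρ g - c • (1 : Matrix (Fin 2) (Fin 2) R)) i j ∈ I) {v : V} (hv : v ∈ tors V I) :
    g • v = c • v := by
  have h1 : Φ (ρ g - c • (1 : Matrix (Fin 2) (Fin 2) R)) v = 0 :=
    map_apply_eq_zero_of_entries Φ _ fun i j => (mem_tors.1 hv) _ (h i j)
  rw [map_sub, map_smul, map_one, LinearMap.sub_apply, LinearMap.smul_apply, Module.End.one_apply,
    H.act, sub_eq_zero] at h1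
  exact h1

/-- if `g = c` on a `Φ`-stable submodule `Y` then the entries of `ρ g - c` kill `Y`. -/
theorem entries_smul_eq_zero (H : RhoAct ρ Φ) (Y : Submodule R V)
    (hY : ∀ (A : Matrix (Fin 2) (Fin 2) R), ∀ y ∈ Y, Φ A y ∈ Y) {g : GQ} {c : R}
    (h : ∀ y ∈ Y, g • y = c • y) (i j : Fin 2) {y : V} (hy : y ∈ Y) :
    (ρ g - c • (1 : Matrix (Fin 2) (Fin 2) R)) i j • y = 0 :=
  entry_smul_eq_zero Φ Y hY _ (fun x hx => by
    rw [map_sub, map_smul, map_one, LinearMap.sub_apply, LinearMap.smul_apply,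
      Module.End.one_apply, H.act, h x hx, sub_self]) i j hy

/-- the ideal generated by the entries of `ρ g - 1`, `g ∈ Γ`. -/
def _root_.Fermat.Agent.ML.ramIdeal (ρ : GQ →* Matrix (Fin 2) (Fin 2) R) (Γ : Set GQ) : Ideal R :=
  Ideal.span {x | ∃ g ∈ Γ, ∃ i j, x = (ρ g - 1) i j}

theorem _root_.Fermat.Agent.ML.entry_mem_ramIdeal {Γ : Set GQ} {g : GQ} (hg : g ∈ Γ) (i j : Fin 2) :
    (ρ g - 1) i j ∈ ramIdeal ρ Γ := Ideal.subset_span ⟨g, hg, i, j, rfl⟩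

theorem _root_.Fermat.Agent.ML.ramIdeal_le {Γ : Set GQ} {J : Ideal R} :
    ramIdeal ρ Γ ≤ J ↔ ∀ g ∈ Γ, ∀ i j, (ρ g - 1) i j ∈ J := by
  unfold ramIdeal
  rw [Ideal.span_le]
  constructor
  · intro h g hg i j
    exact h ⟨g, hg, i, j, rfl⟩
  · rintro h _ ⟨g, hg, i, j, rfl⟩
    exact h g hg i j

/-- `V[I_Γ]` is fixed by `Γ`. -/
theorem smul_eq_of_mem_tors_ramIdeal (H : RhoAct ρ Φ) {Γ : Set GQ} {g : GQ} (hg : g ∈ Γ) {v : V}
    (hv : v ∈ tors V (ramIdeal ρ Γ)) : g • v = v := by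
  have := H.smul_eq_of_entries (I := ramIdeal ρ Γ) (g := g) (c := 1)
    (fun i j => by rw [one_smul]; exact entry_mem_ramIdeal hg i j) hv
  rwa [one_smul] at this

/-- a `Φ`-stable submodule fixed by `Γ` lies in `V[I_Γ]` : `V[I_Γ]` is the largest one. -/
theorem le_tors_ramIdeal (H : RhoAct ρ Φ) (Y : Submodule R V)
    (hY : ∀ (A : Matrix (Fin 2) (Fin 2) R), ∀ y ∈ Y, Φ A y ∈ Y) {Γ : Set GQ}
    (h : ∀ g ∈ Γ, ∀ y ∈ Y, g • y = y) : Y ≤ tors V (ramIdeal ρ Γ) := by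
  intro y hy
  rw [mem_tors]
  intro t ht
  unfold ramIdeal at ht
  induction ht using Submodule.span_induction with
  | mem t ht =>
    obtain ⟨g, hg, i, j, rfl⟩ := ht
    have := H.entries_smul_eq_zero Y hY (g := g) (c := 1)
      (fun y hy => by rw [one_smul]; exact h g hg y hy) i j hy
    rwa [one_smul] at this
  | zero => simp
  | add a b _ _ ha hb => rw [add_smul, ha, hb, add_zero]
  | smul c a _ ha => rw [smul_eq_mul, mul_smul, ha, smul_zero]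

end basic

/-! ### (ASM) the hypotheses of (GEN) -/

section asm

variable {k : Type} [Field k] {p : ℕ} [Fact p.Prime]
  {Λ R V : Type} [CommRing Λ] [Algebra Λ k] [CommRing R] [Algebra Λ R] [AddCommGroup V] [Module R V]
  [DistribMulAction GQ V]
  {ρ : GQ →* M2 R} {Φ : M2 R →ₐ[R] Module.End R V}

/-- the residual trace of a unipotent element is `2`. -/
theorem trace_rbar_eq_two {π : R →ₐ[Λ] k} {rbar : GQ →* M2 k}
    (hlift : ∀ σ, (ρ σ).map π = rbar σ) {g : GQ} (h : (ρ g - 1) * (ρ g - 1) = 0) :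
    (rbar g).trace = 2 := by
  have h1 : (rbar g - 1) * (rbar g - 1) = 0 := by
    have e : rbar g - 1 = (π : R →+* k).mapMatrix (ρ g - 1) := by
      rw [map_sub, map_one]
      congr 1
      exact (hlift g).symm
    rw [e, ← map_mul, h, map_zero]
  have h2 : IsNilpotent (rbar g - 1) := ⟨2, by rw [pow_two, h1]⟩
  have h3 : (rbar g - 1).trace = 0 :=
    (Matrix.isNilpotent_trace_of_isNilpotent h2).eq_zero
  rw [Matrix.trace_sub, Matrix.trace_one, Fintype.card_fin, sub_eq_zero] at h3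
  rw [h3]
  norm_num

/-- the alternative `min` of `S56.GenHyp` from the action on `V`. -/
theorem min_of_act (H : RhoAct ρ Φ) (h2 : (2 : k) ≠ 0) {π : R →ₐ[Λ] k} {rbar : GQ →* M2 k}
    (hlift : ∀ σ, (ρ σ).map π = rbar σ) (hloc : ∀ a : R, π a ≠ 0 → IsUnit a) (v : Nat.Primes)
    (hdet1 : ∀ σ ∈ inert v, (ρ σ).det = 1)
    (h : (∀ σ ∈ inert v, ∀ x : V, σ • x = x) ∨
      ((∃ σ ∈ inert v, rbar σ ≠ 1) ∧ ∀ σ ∈ inert v, ∀ x : V, σ • (σ • x - x) = σ • x - x)) :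
    (∀ σ ∈ inert v, ρ σ = 1) ∨
      ((∃ σ ∈ inert v, rbar σ ≠ 1) ∧ ∀ σ ∈ inert v, (ρ σ).charpoly = (X - 1) ^ 2) := by
  rcases h with h | ⟨hram, h⟩
  · exact Or.inl fun σ hσ => H.eq_one (h σ hσ)
  · refine Or.inr ⟨hram, fun σ hσ => H.charpoly_of_unip (h σ hσ) (hdet1 σ hσ) (hloc _ ?_)⟩
    have e : π (ρ σ).trace = (rbar σ).trace := by
      rw [← hlift σ, Matrix.trace_fin_two, Matrix.trace_fin_two, map_add]
      rfl
    rw [e, trace_rbar_eq_two hlift (H.sq_zero_of_unip (h σ hσ))]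
    exact h2

/-- **(ASM)** `S56.GenHyp` from the action on `V`. -/
theorem genHyp (H : RhoAct ρ Φ) (h2 : (2 : k) ≠ 0) {π : R →ₐ[Λ] k} {rbar : GQ →* M2 k}
    (hlift : ∀ σ, (ρ σ).map π = rbar σ) (hdet : ∀ σ, ∃ c : Λ, (ρ σ).det = algebraMap Λ R c)
    (htr : Algebra.adjoin Λ (Set.range fun σ => (ρ σ).trace) = ⊤)
    (hloc : ∀ a : R, π a ≠ 0 → IsUnit a)
    (hV : ∃ F : IntermediateField ℚ (AlgebraicClosure ℚ), FiniteDimensional ℚ F ∧
      ∀ σ : GQ, (∀ x ∈ F, σ x = x) → ∀ v : V, σ • v = v)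
    (S₀ Q Rs : Finset Nat.Primes)
    (hur : ∀ q : Nat.Primes, q ∉ S₀ ∪ Q → ∀ A : ValuationSubring Qb, A.LiesOverPrime (q : ℕ) →
      ∀ σ ∈ A.inertiaSubgroupIn ℚ, ∀ v : V, σ • v = v)
    (J : Ideal R) (hJ : ∀ a ∈ J, π a = 0)
    (hhard : ∀ v ∈ Rs, ∀ σ ∈ decomp v, ScalarMod Λ J (ρ σ))
    (Lp : Submodule k (↥(decomp (pPrime p)) → sl2 k))
    (hatp : ∀ φ ∈ TanSet π J, resLoc k (pPrime p) (coc h2 (pushRep φ ρ)) ∈ Lp)
    (hdet1 : ∀ v ∈ S₀, v ≠ pPrime p → ∀ σ ∈ inert v, (ρ σ).det = 1)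
    (hmin : ∀ v ∈ S₀, v ∉ Rs → v ≠ pPrime p → (∀ σ ∈ inert v, ∀ x : V, σ • x = x) ∨
      ((∃ σ ∈ inert v, rbar σ ≠ 1) ∧ ∀ σ ∈ inert v, ∀ x : V, σ • (σ • x - x) = σ • x - x)) :
    GenHyp p h2 rbar S₀ Q Rs Lp π ρ J where
  lift := hlift
  det := hdet
  tr := htr
  lev := H.lev hV _ hur
  J_le := hJ
  hard := hhard
  atp := hatp
  min := fun v hv hvR hvp => H.min_of_act h2 hlift hloc v (hdet1 v hv hvp) (hmin v hv hvR hvp)

/-- **(ASM)** `S56.GenHypFlat` from the action on `V`  (`flat` is an explicit hypothesis). -/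
theorem genHypFlat [Finite k] [CharP k p] (H : RhoAct ρ Φ) (h2 : (2 : k) ≠ 0) {π : R →ₐ[Λ] k}
    {rbar : GQ →* M2 k}
    (hlift : ∀ σ, (ρ σ).map π = rbar σ) (hdet : ∀ σ, ∃ c : Λ, (ρ σ).det = algebraMap Λ R c)
    (htr : Algebra.adjoin Λ (Set.range fun σ => (ρ σ).trace) = ⊤)
    (hloc : ∀ a : R, π a ≠ 0 → IsUnit a)
    (hV : ∃ F : IntermediateField ℚ (AlgebraicClosure ℚ), FiniteDimensional ℚ F ∧
      ∀ σ : GQ, (∀ x ∈ F, σ x = x) → ∀ v : V, σ • v = v)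
    (S₀ Q Rs : Finset Nat.Primes)
    (hur : ∀ q : Nat.Primes, q ∉ S₀ ∪ Q → ∀ A : ValuationSubring Qb, A.LiesOverPrime (q : ℕ) →
      ∀ σ ∈ A.inertiaSubgroupIn ℚ, ∀ v : V, σ • v = v)
    (J : Ideal R) (hJ : ∀ a ∈ J, π a = 0)
    (hhard : ∀ v ∈ Rs, ∀ σ ∈ decomp v, ScalarMod Λ J (ρ σ))
    (hflat : ∀ φ ∈ TanSet π J,
      Flat.HasFlat (Flat.Ap p).valuation (Flat.matAct (Flat.Ip p) (pushRep φ ρ)))
    (hdet1 : ∀ v ∈ S₀, v ≠ pPrime p → ∀ σ ∈ inert v, (ρ σ).det = 1)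
    (hmin : ∀ v ∈ S₀, v ∉ Rs → v ≠ pPrime p → (∀ σ ∈ inert v, ∀ x : V, σ • x = x) ∨
      ((∃ σ ∈ inert v, rbar σ ≠ 1) ∧ ∀ σ ∈ inert v, ∀ x : V, σ • (σ • x - x) = σ • x - x)) :
    GenHypFlat p h2 rbar S₀ Q Rs π ρ J := by
  have W := (H.genHyp (p := p) h2 hlift hdet htr hloc hV S₀ Q Rs hur J hJ hhard ⊤
    (fun _ _ => Submodule.mem_top) hdet1 hmin).toW
  exact { lift := hlift, det := hdet, tr := htr, lev := W.lev, J_le := hJ, hard := W.hard,
          flat := hflat, min := W.min }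

end asm

end RhoAct

end Fermat.Agent.ML
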