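import Fermat.Agent.RIB.TameAlg
import Fermat.Agent.S56.Tame.Main
import Fermat.Agent.S54.Frobenius

/-!
# ML / Rho / TameK : the structure of `ρ | I_q`, `q ≠ p`, over a ring with `p` nilpotent   (no module, no level)

`R` a commutative ring, `I` a nilpotent ideal containing `p`, `ρ : G_ℚ → M₂(R)` of finite level, `A ∣ q`, `q ≠ p`,
and `ρ(σ)^(p^e) ≡ 1 mod I` for `σ ∈ I_A` (e.g. `e = 0` : `rbar` unramified at `q`; `e = 1` : `rbar` unipotent on `I_A`).  Then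

* `pow_inertia_eq_one` : `ρ(σ)^(p^(e+N)) = 1` (wild inertia acts trivially);
* `exists_tame_gen` : `ρ(I_A)` is generated by one element `ρ(τ)`;
* `tame_conj` : `ρ(φ) ρ(σ) = ρ(σ)^q ρ(φ)` for every Frobenius `φ` at `A`.
-/

set_option autoImplicit false

noncomputable section

namespace Fermat.Agent.ML

open Fermat.Agent.RIB

local notation "Qbar" => AlgebraicClosure ℚ
local notation "GQ" => (AlgebraicClosure ℚ ≃ₐ[ℚ] AlgebraicClosure ℚ)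
local notation "M₂" => Matrix (Fin 2) (Fin 2)

variable {R : Type} [CommRing R] {p q : ℕ} {A : ValuationSubring Qbar}

theorem pow_eq_one_of_ent {I : Ideal R} {N : ℕ} (hI : I ^ N = ⊥) (hpI : ((p : ℕ) : R) ∈ I) (e : ℕ)
    {X : M₂ R} (hX : ∀ i j, (X ^ (p ^ e) - 1) i j ∈ I) : X ^ (p ^ (e + N)) = 1 := by
  have h1 := TameAlg.ent_pow_p_pow (I := I) (p := p) hpI hX N
  have h2 : I ^ (N + 1) = ⊥ := by rw [pow_succ, hI, Ideal.bot_mul]
  rw [h2] at h1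
  rw [pow_add, pow_mul]
  exact sub_eq_zero.1 h1.eq_zero

/-- the restriction of `ρ` to the inertia group. -/
def resInertia (ρ : GQ →* M₂ R) (A : ValuationSubring Qbar) : ↥(A.inertiaSubgroupIn ℚ) →* M₂ R :=
  ρ.comp (A.inertiaSubgroupIn ℚ).subtype

theorem resInertia_cont {ρ : GQ →* M₂ R} (hcont : GaloisFactorsThroughFiniteLevel ρ) :
    ∃ L : IntermediateField ℚ Qbar, FiniteDimensional ℚ L ∧
      ∀ σ : ↥(A.inertiaSubgroupIn ℚ), (∀ x ∈ L, (σ : GQ) x = x) → resInertia ρ A σ = 1 := by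
  obtain ⟨L, hL, h⟩ := hcont
  exact ⟨L, hL, fun σ hσ => h σ hσ⟩

section

variable (hp : p.Prime) (hq : q.Prime) (hqp : q ≠ p) (hA : A.LiesOverPrime q)
  {ρ : GQ →* M₂ R} (hcont : GaloisFactorsThroughFiniteLevel ρ)
  {I : Ideal R} {N : ℕ} (hI : I ^ N = ⊥) (hpI : ((p : ℕ) : R) ∈ I) (e : ℕ)
  (hun : ∀ σ ∈ A.inertiaSubgroupIn ℚ, ∀ i j, (ρ σ ^ (p ^ e) - 1) i j ∈ I)

include hI hpI hun in
theorem pow_inertia_eq_one {σ : GQ} (hσ : σ ∈ A.inertiaSubgroupIn ℚ) : ρ σ ^ (p ^ (e + N)) = 1 :=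
  pow_eq_one_of_ent hI hpI e (hun σ hσ)

include hp hq hqp hA hcont hI hpI hun in
/-- the image of inertia is cyclic. -/
theorem exists_tame_gen : ∃ τ ∈ A.inertiaSubgroupIn ℚ, ∀ σ ∈ A.inertiaSubgroupIn ℚ,
    ∃ n : ℕ, ρ σ = ρ τ ^ n := by
  have hcop : Nat.Coprime (p ^ (e + N)) q :=
    Nat.Coprime.pow_left _ ((Nat.coprime_primes hp hq).2 (Ne.symm hqp))
  obtain ⟨τ, hτ⟩ := S56.tame_cyclic hq hA (resInertia ρ A) (resInertia_cont hcont) _ hcop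
    (fun σ => pow_inertia_eq_one hI hpI e hun σ.2)
  exact ⟨τ, τ.2, fun σ hσ => hτ ⟨σ, hσ⟩⟩

include hp hq hqp hA hcont hI hpI hun in
/-- the tame relation. -/
theorem tame_conj {φ : GQ} (hφ : A.IsFrobeniusAt φ q) {σ : GQ} (hσ : σ ∈ A.inertiaSubgroupIn ℚ) :
    ρ φ * ρ σ = ρ σ ^ q * ρ φ := by
  have hcop : Nat.Coprime (p ^ (e + N)) q :=
    Nat.Coprime.pow_left _ ((Nat.coprime_primes hp hq).2 (Ne.symm hqp))
  have hconj : φ * σ * φ⁻¹ ∈ A.inertiaSubgroupIn ℚ :=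
    S56.conj_mem_inertia hq hA hφ.mem_decompositionSubgroup hσ
  have h1 : ρ (φ * σ * φ⁻¹) = ρ σ ^ q :=
    S56.tame_frob hq hA (resInertia ρ A) (resInertia_cont hcont) _ hcop
      (fun σ => pow_inertia_eq_one hI hpI e hun σ.2) hφ ⟨σ, hσ⟩ hconj
  have h2 : ρ φ⁻¹ * ρ φ = 1 := by rw [← map_mul, inv_mul_cancel, map_one]
  rw [map_mul, map_mul] at h1
  calc ρ φ * ρ σ = ρ φ * ρ σ * (ρ φ⁻¹ * ρ φ) := by rw [h2, mul_one]
    _ = (ρ φ * ρ σ * ρ φ⁻¹) * ρ φ := by rw [mul_assoc, mul_assoc, mul_assoc]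
    _ = ρ σ ^ q * ρ φ := by rw [h1]

end

end Fermat.Agent.ML
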