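import Fermat.Agent.ML.Rho.Joint
import Fermat.Agent.ML.Rho.Flat
import Fermat.Agent.RIB.Grow.Tau

/-!
# ML / Rho / Bridge : from helper30's `Rho.IsRhoK` (pair `(X, rE)`) to helper84's `RhoAct` on `V = X × Λ²`

`H : Rho.IsRhoK L m X rE πE ρ Φ`.

* `XJ X ρ Φ` : the group `X` with the `G_ℚ`-action `g • x = Φ (ρ g) x` (which is the action of `J₀(L)` by `H.act`);
* `EMJ rE πE` : the `G_ℚ`-module `Rho.EM rE`, `R` acting through `πE`;
* `PhiJ` : `M₂(R) →ₐ[R] End_R (XJ × EMJ)`;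
* `IsRhoK.rhoAct : RhoAct ρ (PhiJ ..)`   — so ALL of `ML/Rho/{Loc,Flat}.lean` applies to `Rho.IsRhoK`;
* `IsRhoK.level`, `IsRhoK.hasFlat`, `IsRhoK.sub_mul_sub_eq_zero` (TRANSFER in the bilinear form).
-/

set_option autoImplicit false
set_option linter.unusedSectionVars false

noncomputable section

open ModularCurve Module

namespace Fermat.Agent.ML.Rho

open Fermat.Agent.GAL Fermat.Agent.RIB Fermat.Agent.RIB.Rho

local notation "Qbar" => AlgebraicClosure ℚ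
local notation "GQ" => (AlgebraicClosure ℚ ≃ₐ[ℚ] AlgebraicClosure ℚ)
local notation "M₂" => Matrix (Fin 2) (Fin 2)

variable {L m : ℕ} [NeZero L] [NeZero m] {R : Type} [CommRing R] [Algebra (ZMod m) R]

/-- `X` with the Galois action given by `Φ ∘ ρ`. -/
def XJ (X : AddSubgroup (JZero L)) [Module R ↥X] (_ρ : GQ →* M₂ R)
    (_Φ : M₂ R →ₐ[R] Module.End R ↥X) : Type := ↥X

section XJ

variable (X : AddSubgroup (JZero L)) [Module R ↥X] (ρ : GQ →* M₂ R)
  (Φ : M₂ R →ₐ[R] Module.End R ↥X)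

instance : AddCommGroup (XJ X ρ Φ) := inferInstanceAs (AddCommGroup ↥X)

instance : Module R (XJ X ρ Φ) := inferInstanceAs (Module R ↥X)

instance : DistribMulAction GQ (XJ X ρ Φ) where
  smul g x := Φ (ρ g) (x : ↥X)
  one_smul x := by
    show Φ (ρ 1) (x : ↥X) = x
    rw [map_one, map_one, Module.End.one_apply]
  mul_smul g h x := by
    show Φ (ρ (g * h)) (x : ↥X) = Φ (ρ g) (Φ (ρ h) (x : ↥X))
    rw [map_mul, map_mul, Module.End.mul_apply]
  smul_zero g := map_zero (Φ (ρ g))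
  smul_add g x y := map_add (Φ (ρ g)) (x : ↥X) (y : ↥X)

/-- the inclusion into `J₀(L)`. -/
def XJ.incl : XJ X ρ Φ →+ JZero L := X.subtype

theorem XJ.incl_injective : Function.Injective (XJ.incl X ρ Φ) := Subtype.val_injective

theorem XJ.smul_def (g : GQ) (x : XJ X ρ Φ) : g • x = Φ (ρ g) (x : ↥X) := rfl

instance [Finite ↥X] : Finite (XJ X ρ Φ) := inferInstanceAs (Finite ↥X)

end XJ

/-- `Rho.EM rE` with `R` acting through `πE`. -/
def EMJ (rE : GQ →* M₂ (ZMod m)) (_πE : R →ₐ[ZMod m] ZMod m) : Type := EM rE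

section EMJ

variable (rE : GQ →* M₂ (ZMod m)) (πE : R →ₐ[ZMod m] ZMod m)

instance : AddCommGroup (EMJ rE πE) := inferInstanceAs (AddCommGroup (EM rE))

instance : DistribMulAction GQ (EMJ rE πE) := inferInstanceAs (DistribMulAction GQ (EM rE))

instance : Module (ZMod m) (EMJ rE πE) := inferInstanceAs (Module (ZMod m) (EM rE))

instance : Module R (EMJ rE πE) := Module.compHom (EM rE) (πE : R →+* ZMod m)

instance : Finite (EMJ rE πE) := inferInstanceAs (Finite (Fin 2 → ZMod m))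

theorem EMJ.smul_def (a : R) (v : EMJ rE πE) : a • v = πE a • v := rfl

theorem EMJ.gal_def (g : GQ) (v : EMJ rE πE) : g • v = (rE g).mulVec (v : Fin 2 → ZMod m) := rfl

/-- the action of `M₂(R)` on `Λ²` through `πE`. -/
def PhiE : M₂ R →ₐ[R] Module.End R (EMJ rE πE) where
  toFun M :=
    { toFun := fun v => (M.map πE).mulVec (v : Fin 2 → ZMod m)
      map_add' := fun v w => Matrix.mulVec_add _ (v : Fin 2 → ZMod m) (w : Fin 2 → ZMod m)
      map_smul' := fun a v => Matrix.mulVec_smul _ (πE a) (v : Fin 2 → ZMod m) }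
  map_one' := by
    ext1 v
    show ((1 : M₂ R).map πE).mulVec (v : Fin 2 → ZMod m) = v
    rw [Matrix.map_one _ (map_zero πE) (map_one πE), Matrix.one_mulVec]
  map_mul' M N := by
    ext1 v
    show ((M * N).map πE).mulVec (v : Fin 2 → ZMod m)
      = (M.map πE).mulVec ((N.map πE).mulVec (v : Fin 2 → ZMod m))
    rw [Matrix.mulVec_mulVec, Matrix.map_mul]
  map_zero' := by
    ext1 v
    show ((0 : M₂ R).map πE).mulVec (v : Fin 2 → ZMod m) = 0
    rw [Matrix.map_zero _ (map_zero πE), Matrix.zero_mulVec]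
  map_add' M N := by
    ext1 v
    show ((M + N).map πE).mulVec (v : Fin 2 → ZMod m)
      = (M.map πE).mulVec (v : Fin 2 → ZMod m) + (N.map πE).mulVec (v : Fin 2 → ZMod m)
    rw [Matrix.map_add _ (map_add πE), Matrix.add_mulVec]
  commutes' a := by
    ext1 v
    show ((algebraMap R (M₂ R) a).map πE).mulVec (v : Fin 2 → ZMod m) = πE a • v
    have : (algebraMap R (M₂ R) a).map πE = πE a • (1 : M₂ (ZMod m)) := by
      ext i j
      fin_cases i <;> fin_cases j <;> simp [Matrix.algebraMap_matrix_apply]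
    rw [this, Matrix.smul_mulVec, Matrix.one_mulVec]
    rfl

theorem PhiE_apply (M : M₂ R) (v : EMJ rE πE) :
    PhiE rE πE M v = (M.map πE).mulVec (v : Fin 2 → ZMod m) := rfl

end EMJ

variable (X : AddSubgroup (JZero L)) [Module R ↥X] (rE : GQ →* M₂ (ZMod m))
  (πE : R →ₐ[ZMod m] ZMod m) (ρ : GQ →* M₂ R) (Φ : M₂ R →ₐ[R] Module.End R ↥X)

/-- the faithful module `V = X × Λ²`. -/
abbrev VJ : Type := XJ X ρ Φ × EMJ rE πE

/-- `M₂(R)` acting on `V = X × Λ²`. -/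
def PhiJ : M₂ R →ₐ[R] Module.End R (VJ X rE πE ρ Φ) :=
  (LinearMap.prodMapAlgHom R (XJ X ρ Φ) (EMJ rE πE)).comp
    (AlgHom.prod (Φ : M₂ R →ₐ[R] Module.End R (XJ X ρ Φ)) (PhiE rE πE))

theorem PhiJ_apply (M : M₂ R) (v : VJ X rE πE ρ Φ) :
    PhiJ X rE πE ρ Φ M v = ((Φ M (v.1 : ↥X) : ↥X), PhiE rE πE M v.2) := rfl

variable {X rE πE ρ Φ}

/-- `a • 1 = ∑ₖ E_{k i} M E_{j k}` for `a = M i j`. -/
theorem entry_smul_one (M : M₂ R) (i j : Fin 2) :
    M i j • (1 : M₂ R) = ∑ k : Fin 2, Matrix.single k i 1 * M * Matrix.single j k 1 := by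
  ext a b
  fin_cases i <;> fin_cases j <;> fin_cases a <;> fin_cases b <;>
    simp [Fin.sum_univ_two]

namespace IsRhoK

variable (H : IsRhoK L m X rE πE ρ Φ)

include H

theorem coe_gal (g : GQ) (x : XJ X ρ Φ) :
    XJ.incl X ρ Φ (g • x) = g • XJ.incl X ρ Φ x := H.act g x

/-- **TRANSFER** for matrices. -/
theorem matrix_eq_zero (M : M₂ R) (h1 : ∀ x : ↥X, Φ M x = 0) (h2 : M.map πE = 0) : M = 0 := by
  ext i j
  refine H.faithful _ (fun x => ?_) ?_
  · have e : Φ (M i j • (1 : M₂ R)) x = 0 := by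
      rw [entry_smul_one, map_sum, LinearMap.sum_apply]
      refine Finset.sum_eq_zero fun k _ => ?_
      rw [map_mul, map_mul, Module.End.mul_apply, Module.End.mul_apply, h1, map_zero]
    rwa [map_smul, map_one, LinearMap.smul_apply, Module.End.one_apply] at e
  · exact congrFun (congrFun h2 i) j

/-- **the bridge** -/
theorem rhoAct : RhoAct ρ (PhiJ X rE πE ρ Φ) where
  act g v := by
    rw [PhiJ_apply, PhiE_apply, H.toE]
    rfl
  inj M hM := by
    refine H.matrix_eq_zero M (fun x => ?_) ?_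
    · exact congrArg Prod.fst (hM ((x : XJ X ρ Φ), (0 : EMJ rE πE)))
    · ext i j
      have := congrFun (congrArg Prod.snd (hM ((0 : XJ X ρ Φ), (Pi.single j 1 : Fin 2 → ZMod m)))) i
      rw [PhiJ_apply, PhiE_apply] at this
      have h0 : ((M.map πE).mulVec (Pi.single j 1 : Fin 2 → ZMod m)) i = 0 := this
      simpa using h0

/-- equality in `V` is checked in `J₀(L)` and in `Λ²`. -/
theorem ext_VJ {v w : VJ X rE πE ρ Φ} (h1 : XJ.incl X ρ Φ v.1 = XJ.incl X ρ Φ w.1)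
    (h2 : (v.2 : EMJ rE πE) = w.2) : v = w :=
  Prod.ext (XJ.incl_injective X ρ Φ h1) h2

/-- `σ = 1` on `V`. -/
theorem gal_eq_self {σ : GQ} (hX : ∀ x ∈ X, σ • x = x) (hE : rE σ = 1)
    (v : VJ X rE πE ρ Φ) : σ • v = v := by
  refine H.ext_VJ ?_ ?_
  · show XJ.incl X ρ Φ (σ • v.1) = _
    rw [H.coe_gal]
    exact hX _ (v.1 : ↥X).2
  · show (rE σ).mulVec (v.2 : Fin 2 → ZMod m) = v.2
    rw [hE, Matrix.one_mulVec]

/-- `(σ - a)(τ - b) = 0` on `V`, `a b : ℤ`. -/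
theorem gal_sub_sub {σ τ : GQ} (a b : ℤ)
    (hX : ∀ x ∈ X, σ • (τ • x - b • x) = a • (τ • x - b • x))
    (hE : (rE σ - ((a : ℤ) : ZMod m) • 1) * (rE τ - ((b : ℤ) : ZMod m) • 1) = 0)
    (v : VJ X rE πE ρ Φ) : σ • (τ • v - b • v) = a • (τ • v - b • v) := by
  refine H.ext_VJ ?_ ?_
  · show XJ.incl X ρ Φ (σ • (τ • v.1 - b • v.1)) = XJ.incl X ρ Φ (a • (τ • v.1 - b • v.1))
    rw [H.coe_gal, map_zsmul, map_sub, map_zsmul, H.coe_gal]
    exact hX _ (v.1 : ↥X).2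
  · obtain ⟨w, hw⟩ : ∃ w : Fin 2 → ZMod m, w = v.2 := ⟨v.2, rfl⟩
    have h := congrArg (fun M : M₂ (ZMod m) => M.mulVec w) hE
    simp only [← Matrix.mulVec_mulVec, Matrix.sub_mulVec, Matrix.smul_mulVec, Matrix.one_mulVec,
      Matrix.zero_mulVec, Matrix.mulVec_sub, Matrix.mulVec_smul] at h
    have key : (rE σ).mulVec ((rE τ).mulVec w - b • w) = a • ((rE τ).mulVec w - b • w) := by
      rw [← Int.cast_smul_eq_zsmul (ZMod m) a, ← Int.cast_smul_eq_zsmul (ZMod m) b,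
        Matrix.mulVec_sub, Matrix.mulVec_smul, ← sub_eq_zero, ← h, smul_sub, smul_sub,
        smul_comm ((a : ℤ) : ZMod m) ((b : ℤ) : ZMod m) w]
      abel
    rw [hw] at key
    exact key

/-- unipotency on `V`. -/
theorem gal_unip {σ τ : GQ} (hX : ∀ x ∈ X, τ • (σ • x - x) = σ • x - x)
    (hE : (rE τ - 1) * (rE σ - 1) = 0) (v : VJ X rE πE ρ Φ) : τ • (σ • v - v) = σ • v - v := by
  have := H.gal_sub_sub (σ := τ) (τ := σ) 1 1 (fun x hx => by simpa using hX x hx)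
    (by simpa using hE) v
  simpa using this

/-- finite level of `V`. -/
theorem level (hXm : ∀ x ∈ X, m • x = 0) (hE : GaloisFactorsThroughFiniteLevel rE) :
    ∃ F : IntermediateField ℚ Qbar, FiniteDimensional ℚ F ∧
      ∀ σ : GQ, (∀ x ∈ F, σ x = x) → ∀ v : VJ X rE πE ρ Φ, σ • v = v := by
  obtain ⟨F₁, hF₁, h₁⟩ := exists_level_torsion L m (NeZero.ne m)
  obtain ⟨F₂, hF₂, h₂⟩ := hE
  refine ⟨F₁ ⊔ F₂, IntermediateField.finiteDimensional_sup F₁ F₂, fun σ hσ v => ?_⟩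
  exact H.gal_eq_self (fun x hx => h₁ σ (fun y hy => hσ y ((le_sup_left : F₁ ≤ F₁ ⊔ F₂) hy)) x
    (hXm x hx)) (h₂ σ fun y hy => hσ y ((le_sup_right : F₂ ≤ F₁ ⊔ F₂) hy)) v

/-- flatness of `V` at `p ∤ L`. -/
theorem hasFlat {p : ℕ} [Fact p.Prime] [Finite ↥X] (hpL : ¬ p ∣ L) (n : ℕ)
    (hXn : ∀ x ∈ X, p ^ n • x = 0)
    (hE : S56.Flat.HasFlat (S56.Flat.Ap p).valuation (galAct (S56.Flat.Ip p) (EM rE))) :
    S56.Flat.HasFlat (S56.Flat.Ap p).valuation (galAct (S56.Flat.Ip p) (VJ X rE πE ρ Φ)) :=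
  hasFlat_galAct_prod
    (hasFlat_galAct_of_jac L hpL n (XJ.incl X ρ Φ) (XJ.incl_injective X ρ Φ) H.coe_gal
      (fun x => hXn _ (x : ↥X).2)) hE

end IsRhoK

end Fermat.Agent.ML.Rho
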