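import Fermat.Agent.RIB.Rho.Tors
import Fermat.Agent.S54.Frobenius

/-!
# ML / RHO / ES : (RHO) for an abstract "Eichler–Shimura module"

`ESMod S V` : an abelian group `V` with an action of `G_ℚ` which factors through a finite level, together with commuting-with-Galois operators
`T r` (`r` prime) such that `φ + r φ⁻¹ = T r` for every Frobenius lift `φ` at a prime `r ∉ S`.

Examples: a `G_ℚ`- and Hecke-stable subgroup of `J₀(L)[p^k]`; `W[p^k](ℚ̄)` with `T r = a_r(W)`; products of such.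

* `ESMod.prod` : the product;
* `exists_poly_spec_es` : [SPEC-POLY] `g + χ(g) g⁻¹ = Q(T r)` for ONE prime `r ∉ S`, `tr rbar g = Q(a r)`;
* `central_es`, `exists_theta_es`;
* `exists_rho_es` : the package `(R, π0, t, ρ, Φ)`, `R` a finite local `ℤ/p^j`-algebra with residue field `𝔽_p` and nilpotent maximal ideal.
-/

set_option autoImplicit false
set_option linter.unusedSectionVars false

namespace Fermat.Agent.ML

open Fermat.Agent.GAL Fermat.Agent.TW.TR Fermat.Agent.RIB.Rho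

local notation "Qbar" => AlgebraicClosure ℚ
local notation "GQ" => (AlgebraicClosure ℚ ≃ₐ[ℚ] AlgebraicClosure ℚ)
local notation "M2" => Matrix (Fin 2) (Fin 2)

universe u v

/-- an abstract Eichler–Shimura module. -/
structure ESMod (S : Finset ℕ) (V : Type u) [AddCommGroup V] [DistribMulAction GQ V] where
  /-- the Hecke operators -/
  T : Nat.Primes → Module.End ℤ V
  comm : ∀ (r : Nat.Primes) (g : GQ) (v : V), T r (g • v) = g • T r v
  level : ∃ F : IntermediateField ℚ Qbar, FiniteDimensional ℚ F ∧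
    ∀ σ : GQ, (∀ y ∈ F, σ y = y) → ∀ v : V, σ • v = v
  es : ∀ r : Nat.Primes, (r : ℕ) ∉ S → ∀ A : ValuationSubring Qbar, A.LiesOverPrime r →
    ∀ φ : GQ, A.IsFrobeniusAt φ r → ∀ v : V, T r v = φ • v + (r : ℕ) • φ⁻¹ • v

namespace ESMod

variable {S : Finset ℕ} {V : Type u} [AddCommGroup V] [DistribMulAction GQ V]
  {V' : Type v} [AddCommGroup V'] [DistribMulAction GQ V']

/-- the product of two Eichler–Shimura modules. -/
noncomputable def prod (E : ESMod S V) (E' : ESMod S V') : ESMod S (V × V') where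
  T r := LinearMap.prodMap (E.T r) (E'.T r)
  comm r g v := Prod.ext (E.comm r g v.1) (E'.comm r g v.2)
  level := by
    obtain ⟨F, hF, h⟩ := E.level
    obtain ⟨F', hF', h'⟩ := E'.level
    refine ⟨F ⊔ F', IntermediateField.finiteDimensional_sup F F', fun σ hσ v => Prod.ext ?_ ?_⟩
    · exact h σ (fun y hy => hσ y ((le_sup_left : F ≤ F ⊔ F') hy)) v.1
    · exact h' σ (fun y hy => hσ y ((le_sup_right : F' ≤ F ⊔ F') hy)) v.2
  es r hr A hA φ hφ v := Prod.ext (E.es r hr A hA φ hφ v.1) (E'.es r hr A hA φ hφ v.2)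

theorem prod_T_apply (E : ESMod S V) (E' : ESMod S V') (r : Nat.Primes) (v : V × V') :
    (E.prod E').T r v = (E.T r v.1, E'.T r v.2) := rfl

/-- the Galois action as a `ℤ`-linear map -/
noncomputable def gal (V : Type u) [AddCommGroup V] [DistribMulAction GQ V] (h : GQ) :
    Module.End ℤ V :=
  (DistribSMul.toAddMonoidHom V h).toIntLinearMap

theorem gal_apply (h : GQ) (x : V) : gal V h x = h • x := rfl

theorem gal_comm_aeval (E : ESMod S V) (h : GQ) (r : Nat.Primes) (Q : Polynomial ℤ) :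
    gal V h * Polynomial.aeval (E.T r) Q = Polynomial.aeval (E.T r) Q * gal V h := by
  have h0 : Commute (gal V h) (E.T r) := LinearMap.ext fun x => (E.comm r h x).symm
  induction Q using Polynomial.induction_on' with
  | add P Q hP hQ => rw [map_add, mul_add, add_mul, hP, hQ]
  | monomial n a =>
    rw [Polynomial.aeval_monomial]
    have h1 : Commute (gal V h) (algebraMap ℤ (Module.End ℤ V) a) :=
      (Algebra.commutes a (gal V h)).symm
    exact h1.mul_right (h0.pow_right n)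

end ESMod

section Main

variable {p m : ℕ} [NeZero m] {S : Finset ℕ} {V : Type u} [AddCommGroup V] [Module (ZMod m) V]
  [DistribMulAction GQ V] [SMulCommClass GQ (ZMod m) V] (E : ESMod S V)
  (hp : p.Prime) {j : ℕ} (hm : m = p ^ j) (hpS : p ∈ S) (a : ℕ → ℤ)
  (rbar : GQ →* M2 (ZMod p)) (hcont : GaloisFactorsThroughFiniteLevel rbar)
  (hfrob : ∀ r : ℕ, r.Prime → r ∉ S → ∀ A : ValuationSubring Qbar, A.LiesOverPrime r →
      ∀ φ : GQ, A.IsFrobeniusAt φ r →
        (rbar φ).trace = ((a r : ℤ) : ZMod p) ∧ (rbar φ).det = ((r : ℕ) : ZMod p))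

theorem zmod_natCast_smul (c : ℕ) (v : V) : ((c : ℕ) : ZMod m) • v = c • v :=
  Nat.cast_smul_eq_nsmul (ZMod m) c v

include hp hm hpS in
theorem chiM_frob {r : ℕ} (hr : r.Prime) (hrS : r ∉ S) {A : ValuationSubring Qbar}
    (hA : A.LiesOverPrime r) {φ : GQ} (hφ : A.IsFrobeniusAt φ r) :
    chiM m φ = ((r : ℕ) : ZMod m) := by
  have hcop : Nat.Coprime r m := by
    rw [hm]
    apply Nat.Coprime.pow_right
    rw [Nat.coprime_primes hr hp]
    rintro rfl
    exact hrS hpS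
  exact PC.cycloChar_of_isFrobeniusAt' m hr hcop hA hφ

include hp hm hpS hcont hfrob in
/-- **[SPEC-POLY]** for an Eichler–Shimura module. -/
theorem exists_poly_spec_es (g : GQ) :
    ∃ (r : Nat.Primes) (Q : Polynomial ℤ), (r : ℕ) ∉ S ∧
      (rbar g).trace = ((Q.eval (a r) : ℤ) : ZMod p) ∧
      ∀ v : V, g • v + chiM m g • g⁻¹ • v = Polynomial.aeval (E.T r) Q v := by
  obtain ⟨F₁, hF₁, h₁⟩ := hcont
  obtain ⟨F₂, hF₂, h₂⟩ := E.level
  obtain ⟨F₃, hF₃, h₃⟩ := cycloChar_finiteLevel m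
  have hF12 : FiniteDimensional ℚ (F₁ ⊔ F₂ : IntermediateField ℚ Qbar) :=
    IntermediateField.finiteDimensional_sup F₁ F₂
  have hF : FiniteDimensional ℚ (F₁ ⊔ F₂ ⊔ F₃ : IntermediateField ℚ Qbar) :=
    IntermediateField.finiteDimensional_sup _ F₃
  obtain ⟨r, A, τ, n, hr, hrS, hA, hτ, hg⟩ := genCheb (F₁ ⊔ F₂ ⊔ F₃) hF g S
  set η : GQ := (τ ^ n)⁻¹ * g with hη
  have hgη : g = τ ^ n * η := by rw [hη, mul_inv_cancel_left]
  have hηF : ∀ y ∈ (F₁ ⊔ F₂ ⊔ F₃ : IntermediateField ℚ Qbar), η y = y := by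
    intro y hy
    rw [hη, AlgEquiv.mul_apply, hg y hy]
    exact (τ ^ n).symm_apply_apply y
  have hη1 : rbar η = 1 := h₁ η fun y hy =>
    hηF y ((le_sup_left : F₁ ⊔ F₂ ≤ F₁ ⊔ F₂ ⊔ F₃) ((le_sup_left : F₁ ≤ F₁ ⊔ F₂) hy))
  have hη2 : ∀ x : V, η • x = x := h₂ η fun y hy =>
    hηF y ((le_sup_left : F₁ ⊔ F₂ ≤ F₁ ⊔ F₂ ⊔ F₃) ((le_sup_right : F₂ ≤ F₁ ⊔ F₂) hy))
  have hη3 : cycloChar m η = 1 := h₃ η fun y hy =>
    hηF y ((le_sup_right : F₃ ≤ F₁ ⊔ F₂ ⊔ F₃) hy)
  obtain ⟨htr, hdet⟩ := hfrob r hr hrS A hA τ hτ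
  refine ⟨⟨r, hr⟩, dickZ (r : ℤ) n, hrS, ?_, ?_⟩
  · rw [hgη, map_mul, hη1, mul_one, map_pow]
    exact trace_pow_eq_dickZ (rbar τ) (a r) (r : ℤ) htr (by rw [hdet]; simp) n
  · intro x
    have key := aeval_dickZ_apply (E.T ⟨r, hr⟩) (fun u => τ • u) (fun u => τ⁻¹ • u) ⊤
      (fun u _ => trivial) (fun u _ => trivial) (fun u => smul_inv_smul τ u)
      (fun u => inv_smul_smul τ u) r
      (fun u _ => E.es ⟨r, hr⟩ hrS A hA τ hτ u) n x trivial
    rw [key]
    have i1 : (fun u : V => τ • u)^[n] x = τ ^ n • x := by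
      rw [smul_iterate_apply]
    have i2 : (fun u : V => τ⁻¹ • u)^[n] x = (τ ^ n)⁻¹ • x := by
      rw [smul_iterate_apply, inv_pow]
    rw [i1, i2]
    have g1 : g • x = τ ^ n • x := by rw [hgη, mul_smul, hη2 x]
    have g2 : g⁻¹ • x = (τ ^ n)⁻¹ • x := by
      rw [hgη, mul_inv_rev, mul_smul, inv_smul_eq_iff, hη2]
    rw [g1, g2]
    congr 1
    have c2 : chiM m τ = ((r : ℕ) : ZMod m) := chiM_frob hp hm hpS hr hrS hA hτ
    have c3 : chiM m g = ((r ^ n : ℕ) : ZMod m) := by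
      have : chiM m η = 1 := by rw [chiM_apply, hη3]; rfl
      rw [hgη, map_mul, this, mul_one, map_pow, c2, Nat.cast_pow]
    rw [c3, zmod_natCast_smul]

include E hp hm hpS hcont hfrob in
/-- `g + χ(g) g⁻¹` commutes with `G_ℚ`. -/
theorem central_es (g h : GQ) (v : V) :
    h • (g • v + chiM m g • g⁻¹ • v) = g • h • v + chiM m g • g⁻¹ • h • v := by
  obtain ⟨r, Q, -, -, hQ⟩ := exists_poly_spec_es E hp hm hpS a rbar hcont hfrob g
  rw [hQ, hQ]
  exact LinearMap.congr_fun (E.gal_comm_aeval h r Q) v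

include hp hm hpS hcont hfrob in
/-- the lift `θ` of `tr rbar` : `g + χ(g) g⁻¹ - θ g` is nilpotent on `V`. -/
theorem exists_theta_es [Finite V]
    (hnil : ∀ r : Nat.Primes, (r : ℕ) ∉ S → ∀ v : V, ∃ n : ℕ,
      ((E.T r - algebraMap ℤ (Module.End ℤ V) (a r)) ^ n) v = 0) :
    ∃ θ : GQ → ℤ, (∀ g, (rbar g).trace = ((θ g : ℤ) : ZMod p)) ∧
      ∀ g, IsNilpotent (tOp V (chiM m) g -
        algebraMap (ZMod m) (Module.End (ZMod m) V) ((θ g : ℤ) : ZMod m)) := by
  choose r Q hr htr hQ using exists_poly_spec_es E hp hm hpS a rbar hcont hfrob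
  refine ⟨fun g => (Q g).eval (a (r g)), htr, fun g => ?_⟩
  have : Module.Finite (ZMod m) V := Module.Finite.of_finite
  refine Module.End.isNilpotent_iff_of_finite.mpr fun v => ?_
  obtain ⟨n, hn⟩ := hnil (r g) (hr g) v
  refine ⟨n, ?_⟩
  set f : Module.End (ZMod m) V := tOp V (chiM m) g -
    algebraMap (ZMod m) (Module.End (ZMod m) V) (((Q g).eval (a (r g)) : ℤ) : ZMod m) with hf
  set T := E.T (r g) with hT
  obtain ⟨Q', hQ'⟩ := Polynomial.X_sub_C_dvd_sub_C_eval (a := a (r g)) (p := Q g)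
  have h1 : ∀ w : V, f w = Polynomial.aeval T (Q g - Polynomial.C ((Q g).eval (a (r g)))) w := by
    intro w
    rw [hf, LinearMap.sub_apply, tOp_apply, hQ, Module.algebraMap_end_apply,
      Int.cast_smul_eq_zsmul, map_sub, LinearMap.sub_apply, Polynomial.aeval_C,
      Module.algebraMap_end_apply]
  have h2 : ∀ (k : ℕ) (w : V), (f ^ k) w =
      Polynomial.aeval T ((Q g - Polynomial.C ((Q g).eval (a (r g)))) ^ k) w := by
    intro k
    induction k with
    | zero => intro w; simp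
    | succ k ih =>
      intro w
      rw [pow_succ, Module.End.mul_apply, ih, h1, pow_succ, map_mul, Module.End.mul_apply]
  have h3 : Polynomial.aeval T ((Polynomial.X - Polynomial.C (a (r g))) ^ n) =
      (T - algebraMap ℤ (Module.End ℤ V) (a (r g))) ^ n := by
    rw [map_pow, map_sub, Polynomial.aeval_X, Polynomial.aeval_C]
  rw [h2, hQ', mul_pow, mul_comm, map_mul, Module.End.mul_apply, h3, hn, map_zero]

end Main

/-! ### the ring `R` is local with residue field `𝔽_p` -/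

section Local

variable {p m j : ℕ} [NeZero m] {R : Type u} [CommRing R] [Algebra (ZMod m) R] {ι : Type*}

/-- every element is a constant plus a nilpotent. -/
theorem exists_const_add_nil (t : ι → R) (θ : ι → ZMod m)
    (hgen : Algebra.adjoin (ZMod m) (Set.range t) = ⊤)
    (hnil : ∀ i, IsNilpotent (t i - algebraMap (ZMod m) R (θ i))) (x : R) :
    ∃ c : ZMod m, IsNilpotent (x - algebraMap (ZMod m) R c) := by
  have hx : x ∈ Algebra.adjoin (ZMod m) (Set.range t) := by rw [hgen]; trivial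
  simp only [← mem_nilradical] at hnil ⊢
  induction hx using Algebra.adjoin_induction with
  | mem x hx =>
    obtain ⟨i, rfl⟩ := hx
    exact ⟨θ i, hnil i⟩
  | algebraMap c => exact ⟨c, by simp⟩
  | add x y _ _ hx hy =>
    obtain ⟨c, hc⟩ := hx
    obtain ⟨d, hd⟩ := hy
    refine ⟨c + d, ?_⟩
    have : x + y - algebraMap (ZMod m) R (c + d) =
        (x - algebraMap (ZMod m) R c) + (y - algebraMap (ZMod m) R d) := by rw [map_add]; ring
    rw [this]
    exact add_mem hc hd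
  | mul x y _ _ hx hy =>
    obtain ⟨c, hc⟩ := hx
    obtain ⟨d, hd⟩ := hy
    refine ⟨c * d, ?_⟩
    have : x * y - algebraMap (ZMod m) R (c * d) =
        y * (x - algebraMap (ZMod m) R c) + algebraMap (ZMod m) R c * (y - algebraMap (ZMod m) R d) := by
      rw [map_mul]; ring
    rw [this]
    exact add_mem (Ideal.mul_mem_left _ _ hc) (Ideal.mul_mem_left _ _ hd)

theorem isNilpotent_of_castHom_eq_zero (hm : m = p ^ j) (hpm : p ∣ m) (c : ZMod m)
    (hc : ZMod.castHom hpm (ZMod p) c = 0) : IsNilpotent c := by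
  rw [← ZMod.natCast_zmod_val c] at hc ⊢
  rw [map_natCast, ZMod.natCast_eq_zero_iff] at hc
  obtain ⟨d, hd⟩ := hc
  refine ⟨j, ?_⟩
  rw [hd, ← Nat.cast_pow, mul_pow, ← hm, Nat.cast_mul, ZMod.natCast_self, zero_mul]

/-- the augmentation `R → 𝔽_p`. -/
theorem exists_pi0 [Nontrivial R] (hp : p.Prime) (hm : m = p ^ j) (hpm : p ∣ m) (t : ι → R)
    (θ : ι → ZMod m) (hgen : Algebra.adjoin (ZMod m) (Set.range t) = ⊤)
    (hnil : ∀ i, IsNilpotent (t i - algebraMap (ZMod m) R (θ i))) :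
    ∃ π0 : R →+* ZMod p, (∀ c, π0 (algebraMap (ZMod m) R c) = ZMod.castHom hpm (ZMod p) c) ∧
      (∀ x, π0 x = 0 ↔ IsNilpotent x) ∧ (∀ x, π0 x ≠ 0 ↔ IsUnit x) ∧
      (∀ i, π0 (t i) = ZMod.castHom hpm (ZMod p) (θ i)) := by
  have : Fact p.Prime := ⟨hp⟩
  have hex := exists_const_add_nil t θ hgen hnil
  set f : ZMod m →+* R ⧸ nilradical R :=
    (Ideal.Quotient.mk (nilradical R)).comp (algebraMap (ZMod m) R) with hf
  have hfs : Function.Surjective f := by
    intro y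
    obtain ⟨x, rfl⟩ := Ideal.Quotient.mk_surjective y
    obtain ⟨c, hc⟩ := hex x
    refine ⟨c, ?_⟩
    rw [hf, RingHom.comp_apply, eq_comm, Ideal.Quotient.eq, mem_nilradical]
    exact hc
  have hker : RingHom.ker f ≤ RingHom.ker (ZMod.castHom hpm (ZMod p)) := by
    intro c hc
    rw [RingHom.mem_ker] at hc ⊢
    by_contra h
    have hu := isUnit_of_castHom_ne_zero hp hm hpm c h
    rw [hf, RingHom.comp_apply, Ideal.Quotient.eq_zero_iff_mem, mem_nilradical] at hc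
    exact not_isUnit_zero (M₀ := R) (by
      obtain ⟨n, hn⟩ := hc
      rw [← hn]
      exact (hu.map (algebraMap (ZMod m) R)).pow n)
  set g : R ⧸ nilradical R →+* ZMod p := RingHom.liftOfSurjective f hfs ⟨_, hker⟩ with hg
  have hgf : ∀ c, g (f c) = ZMod.castHom hpm (ZMod p) c := fun c =>
    RingHom.liftOfRightInverse_comp_apply f _ _ ⟨_, hker⟩ c
  set π0 : R →+* ZMod p := g.comp (Ideal.Quotient.mk (nilradical R)) with hπ0
  have h1 : ∀ c, π0 (algebraMap (ZMod m) R c) = ZMod.castHom hpm (ZMod p) c := hgf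
  have h0 : ∀ x, IsNilpotent x → π0 x = 0 := fun x hx => (hx.map π0).eq_zero
  have h2 : ∀ (x : R) (c : ZMod m), IsNilpotent (x - algebraMap (ZMod m) R c) →
      π0 x = ZMod.castHom hpm (ZMod p) c := by
    intro x c hc
    rw [← h1, ← sub_eq_zero, ← map_sub]
    exact h0 _ hc
  refine ⟨π0, h1, fun x => ⟨fun hx => ?_, h0 x⟩, fun x => ⟨fun hx => ?_, fun hx => ?_⟩,
    fun i => h2 _ _ (hnil i)⟩
  · obtain ⟨c, hc⟩ := hex x
    rw [h2 x c hc] at hx
    have := (isNilpotent_of_castHom_eq_zero hm hpm c hx).map (algebraMap (ZMod m) R)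
    have e : x = (x - algebraMap (ZMod m) R c) + algebraMap (ZMod m) R c := by ring
    rw [e]
    exact (Commute.all _ _).isNilpotent_add hc this
  · obtain ⟨c, hc⟩ := hex x
    rw [h2 x c hc] at hx
    have hu := (isUnit_of_castHom_ne_zero hp hm hpm c hx).map (algebraMap (ZMod m) R)
    have := hc.isUnit_add_left_of_commute hu (Commute.all _ _)
    simpa using this
  · exact (hx.map π0).ne_zero

theorem isLocalRing_of_pi0 [Nontrivial R] {k : Type*} [Field k] (π0 : R →+* k)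
    (hu : ∀ x, π0 x ≠ 0 ↔ IsUnit x) : IsLocalRing R := by
  refine IsLocalRing.of_nonunits_add fun a b ha hb => ?_
  rw [mem_nonunits_iff, ← hu, not_not] at ha hb ⊢
  rw [map_add, ha, hb, add_zero]

end Local

/-! ### the package -/

/-- the output of (RHO) modulo `m = p^j` on a module `V`. -/
structure IsRhoK (p m : ℕ) [NeZero m] (V : Type u) [AddCommGroup V] [DistribMulAction GQ V]
    (rbar0 : GQ →* M2 (ZMod p)) {R : Type u} [CommRing R] [Algebra (ZMod m) R] [Module R V]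
    (π0 : R →+* ZMod p) (ρ : GQ →* M2 R) (Φ : M2 R →ₐ[R] Module.End R V) : Prop where
  act : ∀ (g : GQ) (w : V), Φ (ρ g) w = g • w
  det : ∀ g : GQ, (ρ g).det = algebraMap (ZMod m) R (chiM m g)
  lift : ∀ g : GQ, (ρ g).map π0 = rbar0 g
  tr : Algebra.adjoin (ZMod m) (Set.range fun g : GQ => (ρ g).trace) = ⊤
  faithful : ∀ x : R, (∀ w : V, x • w = 0) → x = 0
  inj : ∀ X : M2 R, (∀ w : V, Φ X w = 0) → X = 0
  nil : ∀ x : R, π0 x = 0 ↔ IsNilpotent x
  unit : ∀ x : R, π0 x ≠ 0 ↔ IsUnit x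
  spec : ∀ (g : GQ) (w : V), (ρ g).trace • w = g • w + algebraMap (ZMod m) R (chiM m g) • g⁻¹ • w

section Pkg

variable {p m : ℕ} [NeZero m] {S : Finset ℕ} {V : Type u} [AddCommGroup V] [Module (ZMod m) V]
  [DistribMulAction GQ V] [SMulCommClass GQ (ZMod m) V] [Finite V] [Nontrivial V]

/-- **(RHO)** for a finite Eichler–Shimura module killed by `m = p^j`, `j ≥ 1`, on which `T r - a r` is nilpotent. -/
theorem exists_rho_es (E : ESMod S V) (hp : p.Prime) {j : ℕ} (hm : m = p ^ j) (hpm : p ∣ m)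
    (hpS : p ∈ S) (a : ℕ → ℤ)
    (hnil : ∀ r : Nat.Primes, (r : ℕ) ∉ S → ∀ v : V, ∃ n : ℕ,
      ((E.T r - algebraMap ℤ (Module.End ℤ V) (a r)) ^ n) v = 0)
    (rbar : GQ →* M2 (ZMod p)) (hcont : GaloisFactorsThroughFiniteLevel rbar)
    (hfrob : ∀ r : ℕ, r.Prime → r ∉ S → ∀ A : ValuationSubring Qbar, A.LiesOverPrime r →
      ∀ φ : GQ, A.IsFrobeniusAt φ r →
        (rbar φ).trace = ((a r : ℤ) : ZMod p) ∧ (rbar φ).det = ((r : ℕ) : ZMod p))
    {i20 u0 : ZMod p} (h20 : i20 * 2 = 1) {c₀ σ₀ τ₀ : GQ} (hc₀ : c₀ * c₀ = 1)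
    (hcc : chiM m c₀ = -1)
    (hu0 : u0 * xF (fun g => (rbar g).trace) i20 c₀ σ₀ τ₀ = 1)
    (hnf : ∀ g, rbar g = rhoMat (fun g => (rbar g).trace) i20 c₀ σ₀ τ₀ u0 g) :
    ∃ (R : Type u) (_ : CommRing R) (_ : Algebra (ZMod m) R) (_ : Module R V)
      (_ : IsScalarTower (ZMod m) R V) (_ : Finite R) (_ : IsLocalRing R) (π0 : R →+* ZMod p)
      (ρ : GQ →* M2 R) (Φ : M2 R →ₐ[R] Module.End R V),
      IsRhoK p m V rbar π0 ρ Φ ∧
      (∀ r : Nat.Primes, (r : ℕ) ∉ S → ∃ x : R, (∀ v : V, x • v = E.T r v) ∧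
        π0 x = ((a r : ℤ) : ZMod p) ∧
        ∀ A : ValuationSubring Qbar, A.LiesOverPrime r → ∀ φ : GQ, A.IsFrobeniusAt φ r →
          (ρ φ).trace = x) := by
  have : Fact p.Prime := ⟨hp⟩
  obtain ⟨θ, hθ, hθn⟩ := exists_theta_es E hp hm hpS a rbar hcont hfrob hnil
  set red : ZMod m →+* ZMod p := ZMod.castHom hpm (ZMod p) with hred
  have h2u : IsUnit (2 : ZMod m) := by
    refine isUnit_of_castHom_ne_zero hp hm hpm _ ?_
    rw [map_ofNat]
    intro h
    rw [h, mul_zero] at h20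
    exact zero_ne_one h20
  obtain ⟨i2, hi2⟩ := h2u.exists_left_inv
  have hri2 : red i2 = i20 := by
    have e := congrArg red hi2
    rw [map_mul, map_one, map_ofNat] at e
    calc red i2 = red i2 * (i20 * 2) := by rw [h20, mul_one]
      _ = i20 * (red i2 * 2) := by ring
      _ = i20 := by rw [e, mul_one]
  have hrθ : (fun g => red (((θ g : ℤ) : ZMod m))) = fun g => (rbar g).trace :=
    funext fun g => by rw [map_intCast, hθ]
  have hux : IsUnit (xF (fun g => ((θ g : ℤ) : ZMod m)) i2 c₀ σ₀ τ₀) := by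
    refine isUnit_of_castHom_ne_zero hp hm hpm _ ?_
    rw [← hred, map_xF, hrθ, hri2]
    intro h
    rw [h, mul_zero] at hu0
    exact zero_ne_one hu0
  obtain ⟨R, iC, iA, iM, iT, t, u, ρ, Φ, h1, h2, h3, h4, h5, h6, h7, h8, h9, h10, h11⟩ :=
    exists_rho_abs (V := V) (chiM m) (fun g => ((θ g : ℤ) : ZMod m))
      (central_es E hp hm hpS a rbar hcont hfrob) hθn hi2 hc₀ hcc hux
  have hRn : Nontrivial R := by
    rcases subsingleton_or_nontrivial R with hs | hn
    · exfalso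
      obtain ⟨v, hv⟩ := exists_ne (0 : V)
      apply hv
      calc v = (1 : R) • v := (one_smul R v).symm
        _ = (0 : R) • v := by rw [Subsingleton.elim (1 : R) 0]
        _ = 0 := zero_smul R v
    · exact hn
  obtain ⟨π0, hπc, hπ0, hπu, hπt⟩ := exists_pi0 hp hm hpm t (fun g => ((θ g : ℤ) : ZMod m)) h2 h4
  have hπt' : ∀ g, π0 (t g) = (rbar g).trace := fun g => by rw [hπt, map_intCast, hθ]
  have htr : (fun g : GQ => (ρ g).trace) = t := funext h7
  refine ⟨R, iC, iA, iM, iT, h11 inferInstance, isLocalRing_of_pi0 π0 hπu, π0, ρ, Φ,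
    ⟨h9, h8, fun g => ?_, by rw [htr]; exact h2, h3, h10, hπ0, hπu, fun g w => ?_⟩, ?_⟩
  · rw [h6, hnf g]
    have ht : ∀ g, π0 (t g) = π0 (algebraMap (ZMod m) R ((θ g : ℤ) : ZMod m)) := fun g => by
      rw [hπt, hπc]
    have := map_rhoMat_eq π0 (RingHom.id (ZMod p)) red hπc t (fun g => ((θ g : ℤ) : ZMod m)) ht i2
      c₀ σ₀ τ₀ u u0 h5 (by rw [hrθ, hri2]; exact hu0) g
    rw [this, hrθ, hri2]
    ext i j
    rfl
  · rw [h7, h1, algebraMap_smul]
  · intro r hr
    obtain ⟨A₀, φ₀, hA₀, hφ₀⟩ := Fermat.Agent.S54.exists_isFrobeniusAt r.2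
    have key : ∀ A : ValuationSubring Qbar, A.LiesOverPrime r → ∀ φ : GQ, A.IsFrobeniusAt φ r →
        ∀ v : V, t φ • v = E.T r v := by
      intro A hA φ hφ v
      rw [h1, chiM_frob hp hm hpS r.2 hr hA hφ, zmod_natCast_smul, E.es r hr A hA φ hφ v]
    refine ⟨t φ₀, key A₀ hA₀ φ₀ hφ₀, ?_, fun A hA φ hφ => ?_⟩
    · rw [hπt', (hfrob r r.2 hr A₀ hA₀ φ₀ hφ₀).1]
    · rw [h7, ← sub_eq_zero]
      refine h3 _ fun v => ?_
      rw [sub_smul, key A hA φ hφ, key A₀ hA₀ φ₀ hφ₀, sub_self]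

end Pkg

end Fermat.Agent.ML
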