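import Fermat.Agent.ML.Rho.PP
import Fermat.Agent.ML.Lift.StepAbs
import Fermat.Agent.ML.Gen.Loc
import Fermat.Agent.ML.Main.Cell

/-!
# ML / Rho / TraceRing : `Rho.IsRhoK` is a trace ring (`Lift.IsTraceRing`)   — the bridge RHO → helper14's abstract steps

* `IsRhoK.smul_mem`, `IsRhoK.isTraceRing`, `IsRhoK.hcomm` (hypothesis `hcomm` of `raise_step_abs`), `IsRhoK.chi_smul` (`hχτ`).
* `zOp_eq_lift`, `zOp_iterate_eq_lift` : the `zOp` of `Main/Cell.lean` is the `zOp` of `Lift/Trace.lean`.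
* `IsRhoK.z_pow_smul` : `(tr ρ(τ) - 2)^n • x = (zOp τ)^[n] x`.

-/

set_option autoImplicit false
set_option linter.unusedSectionVars false

noncomputable section

open ModularCurve Module

namespace Fermat.Agent.ML.Rho

open Fermat.Agent.GAL Fermat.Agent.RIB Fermat.Agent.RIB.Rho

local notation "Qbar" => AlgebraicClosure ℚ
local notation "GQ" => (AlgebraicClosure ℚ ≃ₐ[ℚ] AlgebraicClosure ℚ)
local notation "M₂" => Matrix (Fin 2) (Fin 2)

/-- the two `zOp` agree. -/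
theorem zOp_eq_lift {Y : Type*} [AddCommGroup Y] [DistribMulAction GQ Y] (τ : GQ) :
    (zOp τ : Y → Y) = ⇑(Lift.zOp τ : Y →+ Y) := rfl

theorem zOp_iterate_eq_lift {Y : Type*} [AddCommGroup Y] [DistribMulAction GQ Y] (τ : GQ) (n : ℕ)
    (x : Y) : (zOp τ)^[n] x = (⇑(Lift.zOp τ : Y →+ Y))^[n] x := rfl

variable {L m : ℕ} [NeZero L] [NeZero m] {X : AddSubgroup (JZero L)} {rE : GQ →* M₂ (ZMod m)}
  {R : Type} [CommRing R] [Algebra (ZMod m) R] [Module R ↥X] {πE : R →ₐ[ZMod m] ZMod m}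
  {ρ : GQ →* M₂ R} {Φ : M₂ R →ₐ[R] Module.End R ↥X}

namespace IsRhoK

variable (H : IsRhoK L m X rE πE ρ Φ)

include H

/-- `X` is Galois stable. -/
theorem smul_mem (g : GQ) (x : JZero L) (hx : x ∈ X) : g • x ∈ X := by
  rw [← H.act g ⟨x, hx⟩]
  exact (Φ (ρ g) ⟨x, hx⟩).2

/-- **the bridge** -/
theorem isTraceRing :
    Lift.IsTraceRing X R (fun g : GQ => (ρ g).trace) (fun g : GQ => (((chiM m g).val : ℕ) : ℤ)) where
  stable := H.smul_mem
  gen := adjoin_int_eq_top_of_zmod H.tr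
  spec g x := by rw [H.trace_smul, natCast_zsmul]

/-- hypothesis `hcomm` of `raise_step_abs`. -/
theorem hcomm (g : GQ) (s : R) (x : ↥X) :
    ((s • (⟨g • (x : JZero L), H.isTraceRing.stable g x x.2⟩ : ↥X) : ↥X) : JZero L)
      = g • ((s • x : ↥X) : JZero L) :=
  H.comm g s x _ rfl

/-- hypothesis `hχτ` of `raise_step_abs`. -/
theorem chi_smul {τ : GQ} (hτ : chiM m τ = 1) (x : JZero L) (hx : x ∈ X) :
    (((chiM m τ).val : ℕ) : ℤ) • x = x := by
  have h1 := zsmul_eq_val_nsmul (H.m_nsmul_eq_zero ⟨x, hx⟩) 1 (chiM m τ) (by rw [hτ, Int.cast_one])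
  rw [natCast_zsmul, ← h1, one_zsmul]

/-- `z(τ) = tr ρ(τ) - 2` acts as `zOp τ`. -/
theorem z_pow_smul {τ : GQ} (hτ : chiM m τ = 1) (n : ℕ) (x : ↥X) :
    ((((ρ τ).trace - 2) ^ n • x : ↥X) : JZero L) = (zOp τ)^[n] (x : JZero L) :=
  H.isTraceRing.z_pow_smul (g := τ) (H.chi_smul hτ) n x

theorem z_smul {τ : GQ} (hτ : chiM m τ = 1) (x : ↥X) :
    ((((ρ τ).trace - 2) • x : ↥X) : JZero L) = zOp τ (x : JZero L) := by
  have := H.z_pow_smul hτ 1 x
  rwa [pow_one] at this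

end IsRhoK

end Fermat.Agent.ML.Rho
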