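import Fermat.Agent.ML.Gen.OfRho

/-!
# ML / Rho / FlatSub : flatness at `p` of the tangent vectors which kill `Ann_R(N)`, `N` a FLAT `G_ℚ`-stable submodule

In the frame "one ring at the top of the tower" the module `V = X_top × W[p^K]` is NOT flat at `p` in the case (Mb)
(`W` multiplicative at `p`, `p` the last raising prime: `p` divides the top level).  The stage modules `N = G_j`, `j < s`, are
`G_ℚ`-isomorphic to subgroups of `J₀(N_j)[p^K]`, `p ∤ N_j`, hence flat.

* `RhoAct.hasFlat_mapRep_sub` : `RhoAct ρ Φ`, `N ≤ V` a `G_ℚ`-stable submodule with a `G_ℚ`-equivariant injection into a flat module `X`;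
  then the push-forward of `ρ` along ANY ring hom `φ : R → B` (`B` finite) which kills `Ann_R(N)` is flat.
* `RhoAct.hasFlat_mapRep_sub_jac` : the same with `X = J₀(L)`, `p ∤ L`.
* `GenHypMZ.of_act_sub` : `GenHypMZ.of_act` with the flat alternative asked on the stage module only.
-/

set_option autoImplicit false

noncomputable section

open ModularCurve ExtCitation

namespace Fermat.Agent.ML

open Fermat.Agent.S56 Fermat.Agent.S56.Flat Fermat.Agent.S56.Font Fermat.Agent.S56.Gen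
  Fermat.Agent.RIB
open CFT (Qb decomp)

section Abs

variable {R V : Type} [CommRing R] [AddCommGroup V] [Module R V]

/-- a matrix whose entries kill `x` kills `x`. -/
theorem phi_apply_eq_zero_of_entries (Φ : M2 R →ₐ[R] Module.End R V) (X : M2 R) (x : V)
    (h : ∀ i j, X i j • x = 0) : Φ X x = 0 := by
  have hX : X = ∑ i, ∑ j, X i j • Matrix.single i j (1 : R) := by
    ext a b
    simp [Matrix.sum_apply, Matrix.single_apply, Fin.sum_univ_two]
    fin_cases a <;> fin_cases b <;> simp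
  rw [hX]
  simp only [map_sum, map_smul, LinearMap.sum_apply, LinearMap.smul_apply]
  refine Finset.sum_eq_zero fun i _ => Finset.sum_eq_zero fun j _ => ?_
  rw [← map_smul, h i j, map_zero]

/-- the restriction of `Φ` to a stable submodule. -/
def phiResN (Φ : M2 R →ₐ[R] Module.End R V) (N : Submodule R V)
    (hΦ : ∀ (A : M2 R), ∀ y ∈ N, Φ A y ∈ N) : M2 R →+* Module.End R ↥N where
  toFun A := (Φ A).restrict (hΦ A)
  map_one' := by
    ext y
    simp
  map_mul' A B := by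
    ext y
    simp [LinearMap.restrict_apply]
  map_zero' := by
    ext y
    simp [LinearMap.restrict_apply]
  map_add' A B := by
    ext y
    simp [LinearMap.restrict_apply]

@[simp] theorem coe_phiResN_apply (Φ : M2 R →ₐ[R] Module.End R V) (N : Submodule R V)
    (hΦ : ∀ (A : M2 R), ∀ y ∈ N, Φ A y ∈ N) (A : M2 R) (y : ↥N) :
    ((phiResN Φ N hΦ A y : ↥N) : V) = Φ A (y : V) := rfl

/-- reduction of matrices modulo `Ann_R(N)`. -/
abbrev mkM (N : Submodule R V) : M2 R →+* M2 (R ⧸ N.annihilator) :=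
  (Ideal.Quotient.mk N.annihilator).mapMatrix

/-- a set-theoretic section of `mkM`. -/
def mkMInv (N : Submodule R V) (X : M2 (R ⧸ N.annihilator)) : M2 R :=
  Matrix.of fun i j => (Quotient.out (X i j) : R)

theorem mkM_mkMInv (N : Submodule R V) : Function.RightInverse (mkMInv N) (mkM N) := by
  intro X
  ext i j
  show Ideal.Quotient.mk N.annihilator (Quotient.out (X i j)) = X i j
  exact Ideal.Quotient.mk_out _

theorem ker_mkM_le (Φ : M2 R →ₐ[R] Module.End R V) (N : Submodule R V)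
    (hΦ : ∀ (A : M2 R), ∀ y ∈ N, Φ A y ∈ N) :
    RingHom.ker (mkM N) ≤ RingHom.ker (phiResN Φ N hΦ) := by
  intro X hX
  rw [RingHom.mem_ker] at hX ⊢
  ext y
  rw [coe_phiResN_apply]
  refine (phi_apply_eq_zero_of_entries Φ X y fun i j => ?_).trans rfl
  have h1 : Ideal.Quotient.mk N.annihilator (X i j) = 0 := by
    have := congrFun (congrFun hX i) j
    exact this
  rw [Ideal.Quotient.eq_zero_iff_mem] at h1
  exact Submodule.mem_annihilator.1 h1 y y.2

/-- the action of `M₂(R / Ann N)` on `N`. -/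
def phiQuot (Φ : M2 R →ₐ[R] Module.End R V) (N : Submodule R V)
    (hΦ : ∀ (A : M2 R), ∀ y ∈ N, Φ A y ∈ N) : M2 (R ⧸ N.annihilator) →+* Module.End R ↥N :=
  (mkM N).liftOfRightInverse (mkMInv N) (mkM_mkMInv N) ⟨phiResN Φ N hΦ, ker_mkM_le Φ N hΦ⟩

theorem phiQuot_mkM (Φ : M2 R →ₐ[R] Module.End R V) (N : Submodule R V)
    (hΦ : ∀ (A : M2 R), ∀ y ∈ N, Φ A y ∈ N) (A : M2 R) :
    phiQuot Φ N hΦ (mkM N A) = phiResN Φ N hΦ A :=
  (mkM N).liftOfRightInverse_comp_apply (mkMInv N) (mkM_mkMInv N)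
    ⟨phiResN Φ N hΦ, ker_mkM_le Φ N hΦ⟩ A

end Abs

section Flat

variable {Γ₀ : Type} [LinearOrderedCommGroupWithZero Γ₀] {v : Valuation Qb Γ₀} {G : Subgroup GQ}
  {R V : Type} [CommRing R] [AddCommGroup V] [Module R V] [DistribMulAction GQ V]
  {ρ : GQ →* M2 R} {Φ : M2 R →ₐ[R] Module.End R V}

/-- **flatness relative to a flat stable submodule.** -/
theorem RhoAct.hasFlat_mapRep_sub [Finite V] (H : RhoAct ρ Φ)
    (hadj : Algebra.adjoin R (Set.range ρ) = ⊤) (N : Submodule R V)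
    (hN : ∀ g : GQ, ∀ x ∈ N, g • x ∈ N)
    {X : Type} [AddCommGroup X] [DistribMulAction GQ X] (j : ↥N →+ X)
    (hj : Function.Injective j)
    (hjG : ∀ (g : GQ) (x : ↥N), j ⟨g • (x : V), hN g x x.2⟩ = g • j x)
    (hX : HasFlat v (galAct G X))
    {B : Type} [CommRing B] [Finite B] (φ : R →+* B) (hφ : ∀ a ∈ N.annihilator, φ a = 0) :
    HasFlat v (matAct G (S53.mapRep φ ρ)) := by
  have hΦ : ∀ (A : M2 R), ∀ y ∈ N, Φ A y ∈ N := H.phi_mem hadj N hN
  let _ : Module (M2 (R ⧸ N.annihilator)) ↥N := Module.compHom ↥N (phiQuot Φ N hΦ)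
  have hsm : ∀ (A : M2 R) (w : ↥N), (mkM N A) • w = phiResN Φ N hΦ A w := fun A w => by
    show phiQuot Φ N hΦ (mkM N A) w = _
    rw [phiQuot_mkM]
  set r' : GQ →* M2 (R ⧸ N.annihilator) := S53.mapRep (Ideal.Quotient.mk N.annihilator) ρ with hr'
  have hr'a : ∀ g, r' g = mkM N (ρ g) := fun g => rfl
  have hfaith : ∀ t : R ⧸ N.annihilator,
      (∀ w : ↥N, (Matrix.scalar (Fin 2) t) • w = 0) → t = 0 := by
    intro t ht
    obtain ⟨a, rfl⟩ := Ideal.Quotient.mk_surjective t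
    rw [Ideal.Quotient.eq_zero_iff_mem, Submodule.mem_annihilator]
    intro y hy
    have h1 : Matrix.scalar (Fin 2) (Ideal.Quotient.mk N.annihilator a) =
        mkM N (algebraMap R (M2 R) a) := by
      ext i k
      fin_cases i <;> fin_cases k <;> simp [Matrix.algebraMap_matrix_apply]
    have h2 := ht ⟨y, hy⟩
    rw [h1, hsm] at h2
    have h3 := congrArg Subtype.val h2
    rw [coe_phiResN_apply, AlgHom.commutes] at h3
    exact h3
  have hW : HasFlat v (modAct ↥N (r'.comp G.subtype)) := by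
    refine HasFlat.of_injective (α := galAct G X) (α' := modAct ↥N (r'.comp G.subtype)) j hj
      (fun g x => ?_) hX
    have e : modAct ↥N (r'.comp G.subtype) g x = ⟨(g : GQ) • (x : V), hN g x x.2⟩ := by
      apply Subtype.ext
      show (((r' (g : GQ)) • x : ↥N) : V) = _
      rw [hr'a, hsm, coe_phiResN_apply, H.act]
    rw [e, hjG]
    rfl
  have key := hasFlat_matAct_mapRep_finite G r' hfaith hW (Ideal.Quotient.lift N.annihilator φ hφ)
  have e2 : S53.mapRep (Ideal.Quotient.lift N.annihilator φ hφ) r' = S53.mapRep φ ρ := by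
    ext g i k
    simp [hr']
  rwa [e2] at key

end Flat

section AtP

variable {p : ℕ} [Fact p.Prime]
  {R V : Type} [CommRing R] [AddCommGroup V] [Module R V] [DistribMulAction GQ V]
  {ρ : GQ →* M2 R} {Φ : M2 R →ₐ[R] Module.End R V}

/-- the `G_ℚ`-action on a stable submodule. -/
@[instance_reducible] def subGalAction (N : Submodule R V) (hN : ∀ g : GQ, ∀ x ∈ N, g • x ∈ N) :
    DistribMulAction GQ ↥N where
  smul g x := ⟨g • (x : V), hN g x x.2⟩
  one_smul x := Subtype.ext (one_smul GQ (x : V))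
  mul_smul g h x := Subtype.ext (mul_smul g h (x : V))
  smul_zero g := Subtype.ext (smul_zero g)
  smul_add g x y := Subtype.ext (smul_add g (x : V) (y : V))

/-- **flatness relative to a stable submodule embedded in `J₀(L)[p^n]`, `p ∤ L`.** -/
theorem RhoAct.hasFlat_mapRep_sub_jac [Finite V] (H : RhoAct ρ Φ)
    (hadj : Algebra.adjoin R (Set.range ρ) = ⊤) (N : Submodule R V)
    (hN : ∀ g : GQ, ∀ x ∈ N, g • x ∈ N) (L : ℕ) [NeZero L] (hpL : ¬ p ∣ L) (n : ℕ)
    (ι : ↥N →+ JZero L) (hι : Function.Injective ι)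
    (hιG : ∀ (g : GQ) (x : ↥N), ι ⟨g • (x : V), hN g x x.2⟩ = g • ι x)
    (hn : ∀ x : ↥N, p ^ n • ι x = 0)
    {B : Type} [CommRing B] [Finite B] (φ : R →+* B) (hφ : ∀ a ∈ N.annihilator, φ a = 0) :
    HasFlat (Ap p).valuation (matAct (Ip p) (S53.mapRep φ ρ)) := by
  let _ := subGalAction N hN
  have hX : HasFlat (Ap p).valuation (galAct (Ip p) ↥N) :=
    hasFlat_galAct_of_jac L hpL n ι hι (fun g x => hιG g x) hn
  exact H.hasFlat_mapRep_sub hadj N hN (AddMonoidHom.id ↥N) Function.injective_id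
    (fun _ _ => rfl) hX φ hφ

/-- the first alternative of `GenHypMZ.atp` (= `hflat` of `MCtx.hgen_stage_p`) for every `J ≥ Ann_R(N)`. -/
theorem RhoAct.hasFlat_of_isTan_sub [Finite V] (H : RhoAct ρ Φ)
    (hadj : Algebra.adjoin R (Set.range ρ) = ⊤) (N : Submodule R V)
    (hN : ∀ g : GQ, ∀ x ∈ N, g • x ∈ N)
    {X : Type} [AddCommGroup X] [DistribMulAction GQ X] (j : ↥N →+ X)
    (hj : Function.Injective j)
    (hjG : ∀ (g : GQ) (x : ↥N), j ⟨g • (x : V), hN g x x.2⟩ = g • j x)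
    (hX : HasFlat (Ap p).valuation (galAct (Ip p) X))
    {π0 : R →+* ZMod p} {J : Ideal R} (hJ : N.annihilator ≤ J)
    (φ : R →+* DualNumber (kM p)) (hφ : IsTan p π0 J φ) :
    HasFlat (Ap p).valuation (matAct (Ip p) (S53.mapRep φ ρ)) :=
  H.hasFlat_mapRep_sub hadj N hN j hj hjG hX φ fun a ha => hφ.2 a (hJ ha)

/-- the same with `N` embedded in `J₀(L)[p^n]`, `p ∤ L`. -/
theorem RhoAct.hasFlat_of_isTan_sub_jac [Finite V] (H : RhoAct ρ Φ)
    (hadj : Algebra.adjoin R (Set.range ρ) = ⊤) (N : Submodule R V)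
    (hN : ∀ g : GQ, ∀ x ∈ N, g • x ∈ N) (L : ℕ) [NeZero L] (hpL : ¬ p ∣ L) (n : ℕ)
    (ι : ↥N →+ JZero L) (hι : Function.Injective ι)
    (hιG : ∀ (g : GQ) (x : ↥N), ι ⟨g • (x : V), hN g x x.2⟩ = g • ι x)
    (hn : ∀ x : ↥N, p ^ n • ι x = 0)
    {π0 : R →+* ZMod p} {J : Ideal R} (hJ : N.annihilator ≤ J)
    (φ : R →+* DualNumber (kM p)) (hφ : IsTan p π0 J φ) :
    HasFlat (Ap p).valuation (matAct (Ip p) (S53.mapRep φ ρ)) :=
  H.hasFlat_mapRep_sub_jac hadj N hN L hpL n ι hι hιG hn φ fun a ha => hφ.2 a (hJ ha)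

variable {T : Finset ℕ} {θ : ℕ → ℤ} {rbar0 : GQ →* M2 (ZMod p)}

/-- **`GenHypMZ.of_act` with the field `atp` as a hypothesis** (so that the flat alternative may be asked on the stage module `G`
only: `RhoAct.hasFlat_of_isTan_sub`).   The proof of the other fields is the one of `GenHypMZ.of_act`. -/
theorem GenHypMZ.of_act_sub [Finite V] (C : MCtx p T θ rbar0) (H : RhoAct ρ Φ)
    (hadj : Algebra.adjoin R (Set.range ρ) = ⊤) {π0 : R →+* ZMod p}
    (hlift : ∀ σ, (ρ σ).map π0 = rbar0 σ) (hdet : ∀ σ, ∃ c : ℤ, (ρ σ).det = (c : R))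
    (htr : Algebra.adjoin ℤ (Set.range fun σ => (ρ σ).trace) = ⊤)
    (hloc : ∀ a : R, π0 a ≠ 0 → IsUnit a)
    (hV : ∃ F : IntermediateField ℚ (AlgebraicClosure ℚ), FiniteDimensional ℚ F ∧
      ∀ σ : GQ, (∀ x ∈ F, σ x = x) → ∀ v : V, σ • v = v)
    (S₀ Q Rs : Finset Nat.Primes)
    (hur : ∀ q : Nat.Primes, q ∉ S₀ ∪ Q → ∀ A : ValuationSubring Qb, A.LiesOverPrime (q : ℕ) →
      ∀ σ ∈ A.inertiaSubgroupIn ℚ, ∀ v : V, σ • v = v)
    (G : Submodule R V) (hG : ∀ g : GQ, ∀ x ∈ G, g • x ∈ G) (hG0 : G ≠ ⊥)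
    (I : Ideal R) (hI : ∀ a ∈ I, π0 a = 0)
    (hstrict : ∀ v ∈ Rs, ∃ M : M2 R, IsUnit (M.map π0) ∧
      ∀ σ ∈ decomp v, ConjConst ℤ (G.annihilator ⊔ I) M (ρ σ))
    {X : Type} [AddCommGroup X] [DistribMulAction GQ X] (j : ↥G →+ X)
    (hj : Function.Injective j)
    (hjG : ∀ (g : GQ) (x : ↥G), j ⟨g • (x : V), hG g x x.2⟩ = g • j x)
    (hX : HasFlat (Ap p).valuation (galAct (Ip p) X))
    (hdet1 : ∀ v ∈ S₀, v ≠ pPrime p → ∀ σ ∈ inert v, (ρ σ).det = 1)
    (hmin : ∀ v ∈ S₀, v ∉ Rs → v ≠ pPrime p → (∀ σ ∈ inert v, ∀ x ∈ G, σ • x = x) ∨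
      ((∃ σ ∈ inert v, rbar0 σ ≠ 1) ∧ ∀ σ ∈ inert v, ∀ x ∈ G, σ • (σ • x - x) = σ • x - x)) :
    GenHypMZ p rbar0 S₀ Q Rs π0 ρ (G.annihilator ⊔ I) := by
  have hatp : ∀ φ : R →+* DualNumber (kM p), IsTan p π0 (G.annihilator ⊔ I) φ →
      HasFlat (Ap p).valuation (matAct (Ip p) (S53.mapRep φ ρ)) := fun φ hφ =>
    H.hasFlat_of_isTan_sub hadj G hG j hj hjG hX le_sup_left φ hφ
  refine
    { lift := hlift
      det := hdet
      tr := htr
      lev := H.lev hV _ hur
      J_le := ?_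
      strict := hstrict
      atp := Or.inl hatp
      min := ?_ }
  · intro a ha
    obtain ⟨a₁, ha₁, a₂, ha₂, rfl⟩ := Submodule.mem_sup.1 ha
    rw [map_add, hI a₂ ha₂, add_zero]
    by_contra hne
    obtain ⟨b, hb⟩ := (hloc a₁ hne).exists_left_inv
    refine hG0 ((Submodule.eq_bot_iff _).2 fun x hx => ?_)
    rw [← one_smul R x, ← hb, mul_smul, Submodule.mem_annihilator.1 ha₁ x hx, smul_zero]
  · intro v hv hvR hvp
    rcases hmin v hv hvR hvp with hu | ⟨hram, hu⟩
    · refine Or.inl fun σ hσ i l =>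
        Ideal.mem_sup_left (H.entry_mem_ann hadj G hG (fun y hy => ?_) i l)
      rw [H.phi_sub_one, hu σ hσ y hy, sub_self]
    · refine Or.inr ⟨hram, fun σ hσ => ⟨Ideal.mem_sup_left ?_, ?_⟩⟩
      · have hd := hdet1 v hv hvp σ hσ
        have hent : ∀ i l, ((ρ σ - 1) * (ρ σ - 1)) i l ∈ G.annihilator :=
          H.entry_mem_ann hadj G hG fun y hy => by
            rw [map_mul, Module.End.mul_apply, H.phi_sub_one, H.phi_sub_one, hu σ hσ y hy, sub_self]
        have key : (ρ σ).trace * ((ρ σ).trace - 2) =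
            ((ρ σ - 1) * (ρ σ - 1)) 0 0 + ((ρ σ - 1) * (ρ σ - 1)) 1 1 := by
          rw [Matrix.det_fin_two] at hd
          simp only [Matrix.mul_apply, Fin.sum_univ_two, Matrix.sub_apply, Matrix.one_apply_eq,
            Matrix.one_apply_ne (show (0 : Fin 2) ≠ 1 by decide),
            Matrix.one_apply_ne (show (1 : Fin 2) ≠ 0 by decide), sub_zero, Matrix.trace_fin_two]
          linear_combination 2 * hd
        have hvp' : (v : ℕ) ≠ p := fun e => hvp (Subtype.ext e)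
        have hrb : (rbar0 σ - 1) * (rbar0 σ - 1) = 0 :=
          C.unipI v v.2 hvp' _ (liesOverPrime_primeLocalPlace v) σ hσ σ hσ
        have htb : (rbar0 σ).trace = 2 := by
          have h2 : IsNilpotent (rbar0 σ - 1) := ⟨2, by rw [pow_two, hrb]⟩
          have h3 : (rbar0 σ - 1).trace = 0 :=
            (Matrix.isNilpotent_trace_of_isNilpotent h2).eq_zero
          rw [Matrix.trace_sub, Matrix.trace_one, Fintype.card_fin, sub_eq_zero] at h3
          rw [h3]
          norm_num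
        have hunit : IsUnit (ρ σ).trace := by
          refine hloc _ ?_
          have e : π0 (ρ σ).trace = (rbar0 σ).trace := by
            rw [← hlift σ, Matrix.trace_fin_two, Matrix.trace_fin_two, map_add]
            rfl
          rw [e, htb]
          exact two_ne_zero_zmod C.hp2
        obtain ⟨b, hb⟩ := hunit.exists_left_inv
        have h5 : (ρ σ).trace - 2 = b * ((ρ σ).trace * ((ρ σ).trace - 2)) := by
          rw [← mul_assoc, hb, one_mul]
        rw [h5, key]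
        exact Ideal.mul_mem_left _ _ (Ideal.add_mem _ (hent 0 0) (hent 1 1))
      · rw [hdet1 v hv hvp σ hσ, sub_self]
        exact Ideal.zero_mem _

end AtP

end Fermat.Agent.ML
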