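import Fermat.Agent.ML.Rho.CellRho
import Fermat.Agent.ML.Main.LiftRho

/-!
# ML / Rho / CellTop : [A1-RING] : the ring of a step, from the static context `LCtx`

`X : LCtx W p T b L₀ eps eP`, `Lc` any level supported in `T`, `N := lvl Lc (extP qv) t`.

* `LCtx.exists_topRho` : helper2's `Lift.exists_topRho` with all the static hypotheses discharged, for ANY Galois-stable
  `V ≤ thetaPart N` killed by `p^(K+1)`.
* `LCtx.exists_ring_thTors` : the case `V := thTors N p (p^(K+1)) ↑(cutS T qv) a_W` (`RIB.Rho.thTors`).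

-/

set_option autoImplicit false
set_option linter.unusedSectionVars false

noncomputable section

open ModularCurve Module

namespace Fermat.Agent.ML

open Fermat.Agent.GAL Fermat.Agent.RIB Fermat.Agent.RIB.Rho Fermat.Agent.ML.ESide
  Fermat.Agent.ML.Lift

local notation "Qbar" => AlgebraicClosure ℚ
local notation "GQ" => (AlgebraicClosure ℚ ≃ₐ[ℚ] AlgebraicClosure ℚ)
local notation "M₂" => Matrix (Fin 2) (Fin 2)

variable {W : WeierstrassCurve ℤ} {p : ℕ} [Fact p.Prime] {T : Finset ℕ}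
  {b : Module.Basis (Fin 2) (ZMod p) (TorsW W p)} {L₀ : ℕ} [NeZero L₀] {eps : ℕ → ℤ} {eP : GQ → ℤ}

/-- **[A1-RING]** the ring of a step on an arbitrary Galois-stable `V ≤ thetaPart N [p^(K+1)]`. -/
theorem LCtx.exists_topRho (X : LCtx W p T b L₀ eps eP) {Lc : ℕ} [NeZero Lc]
    (hlev : ∀ r : ℕ, r.Prime → r ∣ Lc * p → r ∈ T) {t : ℕ} (qv : Fin t → Nat.Primes) (K : ℕ)
    (V : AddSubgroup (JZero (lvl Lc (extP qv) t))) (hVG : ∀ (g : GQ), ∀ x ∈ V, g • x ∈ V)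
    (hVm : ∀ x ∈ V, p ^ (K + 1) • x = 0)
    (hVθ : V ≤ thetaPart (lvl Lc (extP qv) t) p (↑(cutS T qv) : Set ℕ) W.apOfModel) :
    ∃ B : Module.Basis (Fin 2) (ZMod (p ^ (K + 1))) (TorsW W (p ^ (K + 1))),
      TopCtx W p b K B (lvl Lc (extP qv) t) V ∧
      Rho.EK (p ^ (K + 1)) (cutS T qv) W.apOfModel (rEB B) ∧
      ∃ (R : Type) (_ : CommRing R) (_ : IsLocalRing R) (_ : Finite R)
        (_ : Algebra (ZMod (p ^ (K + 1))) R) (_ : Module R ↥V)
        (πE : R →ₐ[ZMod (p ^ (K + 1))] ZMod (p ^ (K + 1))) (ρ : GQ →* M₂ R)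
        (Φ : M₂ R →ₐ[R] Module.End R ↥V),
        Rho.IsRhoK (lvl Lc (extP qv) t) (p ^ (K + 1)) V (rEB B) πE ρ Φ :=
  Lift.exists_topRho X.H.hΔ X.H.hss X.H.ne_two X.H.hirr X.C.nf K (cutS T qv)
    (fun _ hr hd => Rho.mem_cutS_of_dvd_lvl hlev t hr hd)
    (fun r hr hrS hd => hrS (subset_cutS T qv (X.hbadT r hr hd))) V hVG hVm hVθ

/-- **[A1-RING]** for `V := thetaPart N [p^(K+1)]`. -/
theorem LCtx.exists_ring_thTors (X : LCtx W p T b L₀ eps eP) {Lc : ℕ} [NeZero Lc]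
    (hlev : ∀ r : ℕ, r.Prime → r ∣ Lc * p → r ∈ T) {t : ℕ} (qv : Fin t → Nat.Primes) (K : ℕ) :
    ∃ B : Module.Basis (Fin 2) (ZMod (p ^ (K + 1))) (TorsW W (p ^ (K + 1))),
      TopCtx W p b K B (lvl Lc (extP qv) t)
        (thTors (lvl Lc (extP qv) t) p (p ^ (K + 1)) (↑(cutS T qv) : Set ℕ) W.apOfModel) ∧
      Rho.EK (p ^ (K + 1)) (cutS T qv) W.apOfModel (rEB B) ∧
      ∃ (R : Type) (_ : CommRing R) (_ : IsLocalRing R) (_ : Finite R)
        (_ : Algebra (ZMod (p ^ (K + 1))) R)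
        (_ : Module R ↥(thTors (lvl Lc (extP qv) t) p (p ^ (K + 1)) (↑(cutS T qv) : Set ℕ)
          W.apOfModel))
        (πE : R →ₐ[ZMod (p ^ (K + 1))] ZMod (p ^ (K + 1))) (ρ : GQ →* M₂ R)
        (Φ : M₂ R →ₐ[R] Module.End R ↥(thTors (lvl Lc (extP qv) t) p (p ^ (K + 1))
          (↑(cutS T qv) : Set ℕ) W.apOfModel)),
        Rho.IsRhoK (lvl Lc (extP qv) t) (p ^ (K + 1))
          (thTors (lvl Lc (extP qv) t) p (p ^ (K + 1)) (↑(cutS T qv) : Set ℕ) W.apOfModel)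
          (rEB B) πE ρ Φ :=
  X.exists_topRho hlev qv K _ (fun g _ hx => smul_mem_thTors g hx) (fun _ hx => hx.2)
    (fun _ hx => hx.1)

/-- a subgroup of `J₀(N)` killed by `p^k` is finite. -/
theorem finite_of_pow_nsmul {N : ℕ} [NeZero N] {k : ℕ} (V : AddSubgroup (JZero N))
    (hV : ∀ x ∈ V, p ^ k • x = 0) : Finite ↥V :=
  Set.Finite.to_subtype ((finite_torsion_JZero N (p ^ k)
    (pow_ne_zero _ (Fact.out : p.Prime).ne_zero)).subset fun x hx => hV x hx)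

end Fermat.Agent.ML
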