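import Fermat.Agent.ML.Rho.JointAbs
import Fermat.Agent.RIB.Rho.Tors
import Fermat.Agent.GAL.PC.CycloPow
import Fermat.Prelude.Def_GaloisRep_ComplexConjugation

/-!
# ML / Rho / Joint : (RHO) modulo `m = p^k` for the pair `X ⊕ W[m]`

* `EK m T a rE` : the `E`-side modulo `m` : `rE : G_ℚ →* M₂(ℤ/m)` (`= W[m]` in Wiles' normal form), `a r = a_r(W)`.
* `IsRhoK L m X rE πE ρ Φ` : `X ≤ J₀(L)[m]` a subgroup, `R` a commutative `ℤ/m`-algebra acting on `X`, `πE : R →ₐ ℤ/m`,
  `ρ : G_ℚ →* M₂(R)`, `Φ : M₂(R) →ₐ[R] End_R X`.   `R` = the image of the Hecke ring in `End X × ℤ/m` (JOINT faithfulness).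
* `exists_rhoK` : existence, for EVERY `G_ℚ`-stable subgroup `X` of `J₀(L)[m]` on which the `T_r - a r` (`r ∉ S`) are locally nilpotent.
* API : `IsRhoK.transfer` (a matrix which kills `X` and whose image under `πE` is `0` is `0`), `eq_one`, `PP`, ...
-/

set_option autoImplicit false
set_option linter.unusedSectionVars false
set_option linter.style.haveILetI false

noncomputable section

open ModularCurve Module

namespace Fermat.Agent.ML.Rho

open Fermat.Agent.GAL Fermat.Agent.GAL.PC Fermat.Agent.TW.TR Fermat.Agent.RIB Fermat.Agent.RIB.Rho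

local notation "Qbar" => AlgebraicClosure ℚ
local notation "GQ" => (AlgebraicClosure ℚ ≃ₐ[ℚ] AlgebraicClosure ℚ)
local notation "M₂" => Matrix (Fin 2) (Fin 2)

/-- the `E`-side modulo `m`. -/
structure EK (m : ℕ) [NeZero m] (T : Finset ℕ) (a : ℕ → ℤ) (rE : GQ →* M₂ (ZMod m)) : Prop where
  cont : GaloisFactorsThroughFiniteLevel rE
  det : ∀ g : GQ, (rE g).det = chiM m g
  frob : ∀ r : ℕ, r.Prime → r ∉ T → ∀ A : ValuationSubring Qbar, A.LiesOverPrime r →
    ∀ φ : GQ, A.IsFrobeniusAt φ r →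
      (rE φ).trace = ((a r : ℤ) : ZMod m) ∧ (rE φ).det = ((r : ℕ) : ZMod m)
  /-- Wiles' normal form -/
  nf : ∃ (i2 : ZMod m) (σ₀ τ₀ : GQ) (u : ZMod m), i2 * 2 = 1 ∧
    u * xF (fun g => (rE g).trace) i2 complexConjugation σ₀ τ₀ = 1 ∧
    ∀ g, rE g = rhoMat (fun g => (rE g).trace) i2 complexConjugation σ₀ τ₀ u g

/-- **(RHO) modulo `m`** for the pair `(X, rE)`. -/
structure IsRhoK (L m : ℕ) [NeZero L] [NeZero m] (X : AddSubgroup (JZero L))
    (rE : GQ →* M₂ (ZMod m)) {R : Type} [CommRing R] [Algebra (ZMod m) R] [Module R ↥X]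
    (πE : R →ₐ[ZMod m] ZMod m) (ρ : GQ →* M₂ R) (Φ : M₂ R →ₐ[R] Module.End R ↥X) : Prop where
  act : ∀ (g : GQ) (x : ↥X), ((Φ (ρ g) x : ↥X) : JZero L) = g • (x : JZero L)
  det : ∀ g : GQ, (ρ g).det = algebraMap (ZMod m) R (chiM m g)
  toE : ∀ g : GQ, (ρ g).map πE = rE g
  tr : Algebra.adjoin (ZMod m) (Set.range fun g : GQ => (ρ g).trace) = ⊤
  /-- JOINT faithfulness -/
  faithful : ∀ a : R, (∀ x : ↥X, a • x = 0) → πE a = 0 → a = 0
  /-- `ker πE` is a nil ideal -/
  nil : ∀ a : R, πE a = 0 → IsNilpotent a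
  /-- the structure map acts in the obvious way -/
  alg : ∀ (c : ZMod m) (x : ↥X), ((algebraMap (ZMod m) R c • x : ↥X) : JZero L) = c.val • (x : JZero L)
  /-- `R` commutes with `G_ℚ` -/
  comm : ∀ (g : GQ) (a : R) (x y : ↥X), (y : JZero L) = g • (x : JZero L) →
    ((a • y : ↥X) : JZero L) = g • ((a • x : ↥X) : JZero L)

section Exists

variable {L p m : ℕ} [NeZero L] [NeZero m]

/-- `ZMod (p^k)` is local. -/
theorem isLocalRing_zmod (hp : p.Prime) {k : ℕ} (hm : m = p ^ k) (hpm : p ∣ m) :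
    IsLocalRing (ZMod m) := by
  haveI : Fact p.Prime := ⟨hp⟩
  haveI : Nontrivial (ZMod m) := by
    have h1 : 1 < m := lt_of_lt_of_le hp.one_lt (Nat.le_of_dvd (Nat.pos_of_ne_zero (NeZero.ne m)) hpm)
    haveI : Fact (1 < m) := ⟨h1⟩
    exact ZMod.nontrivial m
  refine IsLocalRing.of_isUnit_or_isUnit_one_sub_self fun a => ?_
  by_cases h : ZMod.castHom hpm (ZMod p) a = 0
  · right
    refine isUnit_of_castHom_ne_zero hp hm hpm _ ?_
    rw [map_sub, map_one, h, sub_zero]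
    exact one_ne_zero
  · exact Or.inl (isUnit_of_castHom_ne_zero hp hm hpm _ h)

/-- an element of `ZMod (p^k)` which is `0` modulo `p` is nilpotent. -/
theorem isNilpotent_of_castHom_eq_zero {k : ℕ} (hm : m = p ^ k) (hpm : p ∣ m)
    (x : ZMod m) (hx : ZMod.castHom hpm (ZMod p) x = 0) : IsNilpotent x := by
  rw [← ZMod.natCast_zmod_val x] at hx ⊢
  rw [map_natCast, ZMod.natCast_eq_zero_iff] at hx
  obtain ⟨c, hc⟩ := hx
  refine ⟨k, ?_⟩
  rw [hc, Nat.cast_mul, mul_pow, ← Nat.cast_pow, ← hm, ZMod.natCast_self, zero_mul]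

/-- **(RHO) modulo `m = p^k`**, existence. -/
theorem exists_rhoK (hp : p.Prime) {k : ℕ} (hm : m = p ^ k) (hpm : p ∣ m) (S : Finset ℕ)
    (hS : ∀ r : ℕ, r.Prime → r ∣ L * p → r ∈ S) (a : ℕ → ℤ) {rE : GQ →* M₂ (ZMod m)}
    (E : EK m S a rE) (X : AddSubgroup (JZero L)) (hXG : ∀ (g : GQ), ∀ x ∈ X, g • x ∈ X)
    (hXm : ∀ x ∈ X, m • x = 0)
    (hnil : ∀ r : Nat.Primes, (r : ℕ) ∉ S → ∀ x ∈ X, ∃ n : ℕ, (hk L a r ^ n) x = 0) :
    ∃ (R : Type) (_ : CommRing R) (_ : IsLocalRing R) (_ : Finite R) (_ : Algebra (ZMod m) R)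
      (_ : Module R ↥X) (πE : R →ₐ[ZMod m] ZMod m) (ρ : GQ →* M₂ R)
      (Φ : M₂ R →ₐ[R] Module.End R ↥X), IsRhoK L m X rE πE ρ Φ := by
  haveI : Fact p.Prime := ⟨hp⟩
  obtain ⟨i2, σ₀, τ₀, uE, hi2, huE, hnf⟩ := E.nf
  letI iM : Module (ZMod m) ↥X := AddCommGroup.zmodModule fun x => Subtype.ext (hXm x.1 x.2)
  letI iG : DistribMulAction GQ ↥X :=
    { smul := fun σ x => ⟨σ • x.1, hXG σ x.1 x.2⟩
      one_smul := fun x => Subtype.ext (one_smul GQ x.1)
      mul_smul := fun σ τ x => Subtype.ext (mul_smul σ τ x.1)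
      smul_zero := fun σ => Subtype.ext (smul_zero σ)
      smul_add := fun σ x y => Subtype.ext (smul_add σ x.1 y.1) }
  haveI iS : SMulCommClass GQ (ZMod m) ↥X :=
    ⟨fun σ c x => ((DistribSMul.toAddMonoidHom ↥X σ).toZModLinearMap m).map_smul c x⟩
  haveI iF : Finite ↥X :=
    Set.Finite.to_subtype ((finite_torsion_JZero L m (NeZero.ne m)).subset fun x hx => hXm x hx)
  set red : ZMod m →+* ZMod p := ZMod.castHom hpm (ZMod p) with hred
  let rbar : GQ →* M₂ (ZMod p) :=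
    ((red.mapMatrix : M₂ (ZMod m) →+* M₂ (ZMod p)) : M₂ (ZMod m) →* M₂ (ZMod p)).comp rE
  have hrb : ∀ g, rbar g = (rE g).map red := fun g => rfl
  have htrb : ∀ g, (rbar g).trace = red (rE g).trace := fun g => by
    rw [hrb, Matrix.trace_fin_two, Matrix.trace_fin_two, map_add]; rfl
  have hdetb : ∀ g, (rbar g).det = red (rE g).det := fun g => by
    rw [hrb]; exact (red.map_det (rE g)).symm
  have hcontb : GaloisFactorsThroughFiniteLevel rbar := by
    obtain ⟨F, hF, h⟩ := E.cont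
    exact ⟨F, hF, fun σ hσ => by rw [hrb, h σ hσ]; exact map_one red.mapMatrix⟩
  have hfrobb : ∀ r : ℕ, r.Prime → r ∉ S → ∀ A : ValuationSubring Qbar, A.LiesOverPrime r →
      ∀ φ : GQ, A.IsFrobeniusAt φ r →
        (rbar φ).trace = ((a r : ℤ) : ZMod p) ∧ (rbar φ).det = ((r : ℕ) : ZMod p) := by
    intro r hr hrS A hA φ hφ
    obtain ⟨h1, h2⟩ := E.frob r hr hrS A hA φ hφ
    exact ⟨by rw [htrb, h1, map_intCast], by rw [hdetb, h2, map_natCast]⟩
  have hιG : ∀ (g : GQ) (v : ↥X), X.subtype (g • v) = g • X.subtype v := fun _ _ => rfl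
  obtain ⟨θ, hθ, hθn⟩ := exists_theta X.subtype hιG hp hm S hS a rbar hcontb hfrobb
    (fun r hr v => hnil r hr v.1 v.2) Subtype.val_injective
  have hnE : ∀ g, IsNilpotent ((rE g).trace - ((θ g : ℤ) : ZMod m)) := fun g => by
    refine isNilpotent_of_castHom_eq_zero hm hpm _ ?_
    rw [← hred, map_sub, map_intCast, ← hθ, htrb, sub_self]
  have hux : IsUnit (xF (fun g => ((θ g : ℤ) : ZMod m)) i2 complexConjugation σ₀ τ₀) := by
    refine isUnit_of_castHom_ne_zero hp hm hpm _ ?_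
    rw [← hred, map_xF]
    have e1 : (fun g => red (((θ g : ℤ) : ZMod m))) = fun g => red ((rE g).trace) :=
      funext fun g => by rw [map_intCast, ← hθ, htrb]
    rw [e1, ← map_xF]
    intro h
    have := congrArg red huE
    rw [map_mul, h, mul_zero, map_one] at this
    exact zero_ne_one this
  obtain ⟨R, iC, iA, iMR, iT, πE, t, u, ρ, Φ, h1, h2, h3, h4, h5, h6, h7, h8, h9, h10, h11, h12⟩ :=
    exists_rho_joint (X := ↥X) (chiM m) (fun g => ((θ g : ℤ) : ZMod m)) rE E.det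
      (central X.subtype Subtype.val_injective hιG hp hm S hS a rbar hcontb hfrobb) hθn hnE hi2
      complexConjugation_mul_self (cycloChar_complexConjugation m) hux
  haveI iLΛ : IsLocalRing (ZMod m) := isLocalRing_zmod hp hm hpm
  haveI iN : Nontrivial R := by
    refine ⟨⟨0, 1, fun h => ?_⟩⟩
    have := congrArg πE h
    rw [map_zero, map_one] at this
    exact zero_ne_one this
  haveI iL : IsLocalRing R := isLocalRing_of_gen t _ h3 h5
  refine ⟨R, iC, iL, h12 iF inferInstance, iA, iMR, πE, ρ, Φ,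
    ⟨fun g x => by rw [h10]; rfl, h9, fun g => ?_, ?_, h4, fun b hb => ?_, fun c x => ?_,
      fun g b x y hxy => ?_⟩⟩
  · rw [h7]
    show (rhoMat t (algebraMap (ZMod m) R i2) complexConjugation σ₀ τ₀ u g).map
      (πE : R →+* ZMod m) = rE g
    rw [rhoMat_map, hnf g]
    have e1 : (fun x => (πE : R →+* ZMod m) (t x)) = fun g => (rE g).trace := funext h2
    have e2 : (πE : R →+* ZMod m) (algebraMap (ZMod m) R i2) = i2 := πE.commutes i2
    have e3 : (πE : R →+* ZMod m) u = uE := by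
      have e := congrArg (πE : R →+* ZMod m) h6
      rw [map_mul, map_one, map_xF, e1, e2] at e
      calc (πE : R →+* ZMod m) u
          = (πE : R →+* ZMod m) u * (uE * xF (fun g => (rE g).trace) i2 complexConjugation σ₀ τ₀) := by
            rw [huE, mul_one]
        _ = uE * ((πE : R →+* ZMod m) u * xF (fun g => (rE g).trace) i2 complexConjugation σ₀ τ₀) := by
            ring
        _ = uE := by rw [e, mul_one]
    rw [e1, e2, e3]
  · have : (fun g : GQ => (ρ g).trace) = t := funext h8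
    rw [this]
    exact h3
  · obtain ⟨c, hc⟩ := exists_sub_nilpotent t _ h3 h5 b
    have h13 : IsNilpotent (πE (b - algebraMap (ZMod m) R c)) := hc.map πE
    rw [map_sub, hb, zero_sub, AlgHom.commutes] at h13
    have h14 : IsNilpotent c := by
      have := h13.neg
      rwa [neg_neg] at this
    have h15 : IsNilpotent (algebraMap (ZMod m) R c) := h14.map _
    have := (Commute.all _ _).isNilpotent_add hc h15
    rwa [sub_add_cancel] at this
  · rw [algebraMap_smul, zmod_smul_eq]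
    rfl
  · have e : y = g • x := Subtype.ext hxy
    rw [e, ← h11]
    rfl

end Exists

end Fermat.Agent.ML.Rho
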