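import Fermat.Agent.ML.Rho.TraceRing
import Fermat.Agent.RIB.Main.Mid

/-!
# ML / Rho / CellRho : (RHO) on a cell

* `EK.mono` : the `E`-side is monotone in the set of bad primes.
* `mem_cutS_of_dvd_lvl` : the primes of `lvl Lc (extP qv) t * p` are in `cutS T qv`.
* `chiM_inertia` : `χ(τ) = 1` modulo `p^k` for `τ ∈ I_l`, `l ≠ p`.
* `IsCell.exists_rhoK` : the joint ring of a cell `G` and of `rE`.
* for `H : IsRhoK .. G ..` on a cell : `IsCell.p_pow_smul`, `IsCell.z_pow_smul` (the box in the ring `R`).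
-/

set_option autoImplicit false
set_option linter.unusedSectionVars false

noncomputable section

open ModularCurve Module

namespace Fermat.Agent.ML.Rho

open Fermat.Agent.GAL Fermat.Agent.GAL.PC Fermat.Agent.RIB Fermat.Agent.RIB.Rho

local notation "Qbar" => AlgebraicClosure ℚ
local notation "GQ" => (AlgebraicClosure ℚ ≃ₐ[ℚ] AlgebraicClosure ℚ)
local notation "M₂" => Matrix (Fin 2) (Fin 2)

/-- the `E`-side is monotone in the set of bad primes. -/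
theorem EK.mono {m : ℕ} [NeZero m] {T S : Finset ℕ} {a : ℕ → ℤ} {rE : GQ →* M₂ (ZMod m)}
    (E : EK m T a rE) (h : T ⊆ S) : EK m S a rE :=
  ⟨E.cont, E.det, fun r hr hrS => E.frob r hr fun h' => hrS (h h'), E.nf⟩

/-- the primes of the top level. -/
theorem mem_cutS_of_dvd_lvl {p Lc t : ℕ} {T : Finset ℕ} {qv : Fin t → Nat.Primes}
    (hlev : ∀ r : ℕ, r.Prime → r ∣ Lc * p → r ∈ T) (i : ℕ) {r : ℕ} (hr : r.Prime)
    (hd : r ∣ lvl Lc (extP qv) i * p) : r ∈ cutS T qv := by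
  rcases (Nat.Prime.dvd_mul hr).1 hd with h | h
  · rcases dvd_lvl_cases i hr h with h | ⟨j, rfl⟩
    · exact subset_cutS T qv (hlev r hr (Dvd.dvd.mul_right h p))
    · exact mem_cutS_qv T qv j
  · exact subset_cutS T qv (hlev r hr (Dvd.dvd.mul_left h Lc))

/-- `χ = 1` on the inertia groups at `l ≠ p`. -/
theorem chiM_inertia {p l k : ℕ} [NeZero (p ^ k)] (hp : p.Prime) (hl : l.Prime) (hlp : l ≠ p)
    {A : ValuationSubring Qbar} (hA : A.LiesOverPrime l) {τ : GQ}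
    (hτ : τ ∈ A.inertiaSubgroupIn ℚ) : chiM (p ^ k) τ = 1 := by
  rw [chiM_apply, cycloChar_of_mem_inertia' _ hl
    (Nat.Coprime.pow_right _ ((Nat.coprime_primes hl hp).2 hlp)) hA hτ, Units.val_one]

section Cell

variable {p : ℕ} [Fact p.Prime] {T : Finset ℕ} {θ : ℕ → ℤ} {rbar0 : GQ →* M₂ (ZMod p)}
  {eps : ℕ → ℤ} {eP : GQ → ℤ} {Lc : ℕ} [NeZero Lc] {t : ℕ} {qv : Fin t → Nat.Primes} {a : ℕ}
  {P : Finset ℕ} {G : AddSubgroup (JZero (lvl Lc (extP qv) t))}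

/-- a cell is killed by `p^k`, `a ≤ k`. -/
theorem _root_.Fermat.Agent.ML.IsCell.pow_nsmul (hG : IsCell p T θ rbar0 eps eP Lc qv a P G) {k : ℕ}
    (hk : a ≤ k) (x : JZero (lvl Lc (extP qv) t)) (hx : x ∈ G) : p ^ k • x = 0 := by
  obtain ⟨c, rfl⟩ := Nat.exists_eq_add_of_le hk
  rw [pow_add, mul_nsmul, (hG.box x hx).1, smul_zero]

/-- **(RHO) on a cell.** -/
theorem _root_.Fermat.Agent.ML.IsCell.exists_rhoK (hG : IsCell p T θ rbar0 eps eP Lc qv a P G)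
    (hlev : ∀ r : ℕ, r.Prime → r ∣ Lc * p → r ∈ T) {K : ℕ} (haK : a ≤ K + 1)
    {rE : GQ →* M₂ (ZMod (p ^ (K + 1)))} (E : EK (p ^ (K + 1)) T θ rE) :
    ∃ (R : Type) (_ : CommRing R) (_ : IsLocalRing R) (_ : Finite R)
      (_ : Algebra (ZMod (p ^ (K + 1))) R) (_ : Module R ↥G)
      (πE : R →ₐ[ZMod (p ^ (K + 1))] ZMod (p ^ (K + 1))) (ρ : GQ →* M₂ R)
      (Φ : M₂ R →ₐ[R] Module.End R ↥G),
      IsRhoK (lvl Lc (extP qv) t) (p ^ (K + 1)) G rE πE ρ Φ :=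
  Fermat.Agent.ML.Rho.exists_rhoK Fact.out rfl (dvd_pow_self p K.succ_ne_zero) (cutS T qv)
    (fun _ hr hd => mem_cutS_of_dvd_lvl hlev t hr hd) θ (E.mono (subset_cutS T qv)) G hG.gal
    (hG.pow_nsmul haK) (fun r hr x hx => (hG.le hx).2 r hr)

variable {K : ℕ} {rE : GQ →* M₂ (ZMod (p ^ (K + 1)))} {R : Type} [CommRing R]
  [Algebra (ZMod (p ^ (K + 1))) R] [Module R ↥G]
  {πE : R →ₐ[ZMod (p ^ (K + 1))] ZMod (p ^ (K + 1))} {ρ : GQ →* M₂ R}
  {Φ : M₂ R →ₐ[R] Module.End R ↥G}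

/-- `p^a = 0` on the cell, in the ring. -/
theorem _root_.Fermat.Agent.ML.IsCell.p_pow_smul (hG : IsCell p T θ rbar0 eps eP Lc qv a P G)
    (x : ↥G) : (p : R) ^ a • x = 0 := by
  refine Subtype.ext ?_
  rw [← Nat.cast_pow, Nat.cast_smul_eq_nsmul]
  exact (hG.box x x.2).1

/-- `z(τ)^a = 0` on the cell, in the ring, for EVERY `τ` in an inertia group at a Taylor-Wiles prime. -/
theorem _root_.Fermat.Agent.ML.IsCell.z_pow_smul (hG : IsCell p T θ rbar0 eps eP Lc qv a P G)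
    (H : IsRhoK (lvl Lc (extP qv) t) (p ^ (K + 1)) G rE πE ρ Φ)
    (hqp : ∀ i, ((qv i : Nat.Primes) : ℕ) ≠ p) (i : Fin t) {A : ValuationSubring Qbar}
    (hA : A.LiesOverPrime ((qv i : Nat.Primes) : ℕ)) {τ : GQ} (hτ : τ ∈ A.inertiaSubgroupIn ℚ)
    (x : ↥G) : ((ρ τ).trace - 2) ^ a • x = 0 := by
  refine Subtype.ext ?_
  rw [H.z_pow_smul (chiM_inertia Fact.out (qv i).2 (hqp i) hA hτ)]
  exact (hG.box x x.2).2 i A hA τ hτ

end Cell

end Fermat.Agent.ML.Rho
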