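import Mathlib
import Fermat.Agent.RIB.Rho.Ring

/-!
# ML / Rho / JointAbs : (RHO) for the pair `X ⊕ Λ²`   (Mathlib + `RIB/Rho/{Mod,Ring}` only)

`Λ` any commutative ring (`ZMod (p^k)`), `X` a `Λ`-module with a `Λ`-linear action of `G`, `χ : G →* Λ`, `rE : G →* M₂(Λ)` with `det rE = χ`.
`R ⊆ End_Λ X × Λ` is the `Λ`-algebra generated by the pairs `(g + χ(g) g⁻¹, tr rE g)`.

* `EM rE` : the `G`-module `Λ²`;  `EM.spec` : `g + χ(g) g⁻¹ = tr rE g` on it.
* `exists_rho_joint` : `(R, πE, t, u, ρ, Φ)` : `R` acts on `X`, `πE : R →ₐ[Λ] Λ`, JOINT faithfulness, `ρ : G →* M₂(R)`, `Φ (ρ g) = g` on `X`.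
* `exists_sub_nilpotent`, `isLocalRing_of_gen` : `R` is local as soon as `Λ` is.
-/

set_option autoImplicit false
set_option linter.style.haveILetI false
set_option linter.deprecated false
set_option linter.unnecessarySeqFocus false

namespace Fermat.Agent.ML.Rho

open Fermat.Agent.TW.TR Fermat.Agent.RIB Fermat.Agent.RIB.Rho Module

universe u

local notation "M₂" => Matrix (Fin 2) (Fin 2)

section EM

variable {Λ : Type u} [CommRing Λ] {G : Type*} [Group G]

/-- the `G`-module `Λ²` attached to `rE`. -/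
def EM (_rE : G →* M₂ Λ) : Type u := Fin 2 → Λ

namespace EM

variable (rE : G →* M₂ Λ)

instance : AddCommGroup (EM rE) := inferInstanceAs (AddCommGroup (Fin 2 → Λ))

instance : Module Λ (EM rE) := inferInstanceAs (Module Λ (Fin 2 → Λ))

instance : DistribMulAction G (EM rE) where
  smul g v := (rE g).mulVec v
  one_smul v := by
    show (rE 1).mulVec v = v
    rw [map_one, Matrix.one_mulVec]
  mul_smul g h v := by
    show (rE (g * h)).mulVec v = (rE g).mulVec ((rE h).mulVec v)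
    rw [map_mul, Matrix.mulVec_mulVec]
  smul_zero g := Matrix.mulVec_zero _
  smul_add g v w := Matrix.mulVec_add _ v w

theorem smul_def (g : G) (v : EM rE) : g • v = (rE g).mulVec v := rfl

instance : SMulCommClass G Λ (EM rE) := ⟨fun g a v => Matrix.mulVec_smul (rE g) a v⟩

theorem add_adjugate (A : M₂ Λ) : A + A.adjugate = A.trace • (1 : M₂ Λ) := by
  rw [Matrix.adjugate_fin_two, Matrix.trace_fin_two]
  ext i j
  fin_cases i <;> fin_cases j <;> simp <;> ring

theorem det_smul_inv (g : G) : (rE g).det • rE g⁻¹ = (rE g).adjugate := by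
  have h1 : rE g * rE g⁻¹ = 1 := by rw [← map_mul, mul_inv_cancel, map_one]
  calc (rE g).det • rE g⁻¹ = ((rE g).det • (1 : M₂ Λ)) * rE g⁻¹ := by
        rw [smul_mul_assoc, one_mul]
    _ = (rE g).adjugate * rE g * rE g⁻¹ := by rw [Matrix.adjugate_mul]
    _ = (rE g).adjugate := by rw [mul_assoc, h1, mul_one]

/-- Cayley–Hamilton : `g + χ(g) g⁻¹ = tr rE g`. -/
theorem spec (χ : G →* Λ) (hdet : ∀ g, (rE g).det = χ g) (g : G) (v : EM rE) :
    g • v + χ g • g⁻¹ • v = (rE g).trace • v := by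
  show (rE g).mulVec v + χ g • (rE g⁻¹).mulVec v = (rE g).trace • v
  rw [← Matrix.smul_mulVec, ← Matrix.add_mulVec, ← hdet, det_smul_inv, add_adjugate,
    Matrix.smul_mulVec, Matrix.one_mulVec]
  rfl

end EM

end EM

section Gen

variable {Λ R : Type*} [CommRing Λ] [CommRing R] [Algebra Λ R] {ι : Type*}

/-- every element of `R` is a constant modulo the nilradical. -/
theorem exists_sub_nilpotent (t : ι → R) (θ : ι → Λ) (hgen : Algebra.adjoin Λ (Set.range t) = ⊤)
    (hnil : ∀ g, IsNilpotent (t g - algebraMap Λ R (θ g))) (a : R) :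
    ∃ c : Λ, IsNilpotent (a - algebraMap Λ R c) := by
  have ha : a ∈ Algebra.adjoin Λ (Set.range t) := by rw [hgen]; exact Algebra.mem_top
  simp only [← mem_nilradical] at hnil ⊢
  induction ha using Algebra.adjoin_induction with
  | mem x hx =>
    obtain ⟨g, rfl⟩ := hx
    exact ⟨θ g, hnil g⟩
  | algebraMap c => exact ⟨c, by rw [sub_self]; exact zero_mem _⟩
  | add x y _ _ hx hy =>
    obtain ⟨c, hc⟩ := hx
    obtain ⟨d, hd⟩ := hy
    refine ⟨c + d, ?_⟩
    have : x + y - algebraMap Λ R (c + d) = (x - algebraMap Λ R c) + (y - algebraMap Λ R d) := by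
      rw [map_add]; ring
    rw [this]
    exact add_mem hc hd
  | mul x y _ _ hx hy =>
    obtain ⟨c, hc⟩ := hx
    obtain ⟨d, hd⟩ := hy
    refine ⟨c * d, ?_⟩
    have : x * y - algebraMap Λ R (c * d) =
        (x - algebraMap Λ R c) * y + algebraMap Λ R c * (y - algebraMap Λ R d) := by
      rw [map_mul]; ring
    rw [this]
    exact add_mem (Ideal.mul_mem_right _ _ hc) (Ideal.mul_mem_left _ _ hd)

/-- `R` is local if `Λ` is. -/
theorem isLocalRing_of_gen [IsLocalRing Λ] [Nontrivial R] (t : ι → R) (θ : ι → Λ)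
    (hgen : Algebra.adjoin Λ (Set.range t) = ⊤)
    (hnil : ∀ g, IsNilpotent (t g - algebraMap Λ R (θ g))) : IsLocalRing R := by
  refine IsLocalRing.of_isUnit_or_isUnit_one_sub_self fun a => ?_
  obtain ⟨c, hc⟩ := exists_sub_nilpotent t θ hgen hnil a
  rcases IsLocalRing.isUnit_or_isUnit_one_sub_self c with h | h
  · left
    have := hc.isUnit_add_left_of_commute (h.map (algebraMap Λ R)) (Commute.all _ _)
    simpa using this
  · right
    have h1 : IsNilpotent (-(a - algebraMap Λ R c)) := hc.neg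
    have := h1.isUnit_add_left_of_commute (h.map (algebraMap Λ R)) (Commute.all _ _)
    have e : algebraMap Λ R (1 - c) + -(a - algebraMap Λ R c) = 1 - a := by
      rw [map_sub, map_one]; ring
    rwa [e] at this

end Gen

section Abs

variable {Λ : Type u} [CommRing Λ] {X : Type u} [AddCommGroup X] [Module Λ X] {G : Type*} [Group G]
  [DistribMulAction G X] [SMulCommClass G Λ X]

/-- **(RHO) for the pair** `X ⊕ Λ²`. -/
theorem exists_rho_joint (χ : G →* Λ) (θ : G → Λ) (rE : G →* M₂ Λ) (hdetE : ∀ g, (rE g).det = χ g)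
    (hcen : ∀ (g h : G) (v : X), h • (g • v + χ g • g⁻¹ • v) = g • h • v + χ g • g⁻¹ • h • v)
    (hnil : ∀ g, IsNilpotent (tOp X χ g - algebraMap Λ (Module.End Λ X) (θ g)))
    (hnilE : ∀ g, IsNilpotent ((rE g).trace - θ g))
    {i2 : Λ} (h2 : i2 * 2 = 1) {c₀ σ₀ τ₀ : G} (hc₀ : c₀ * c₀ = 1) (hcc : χ c₀ = -1)
    (hu : IsUnit (xF θ i2 c₀ σ₀ τ₀)) :
    ∃ (R : Type u) (_ : CommRing R) (_ : Algebra Λ R) (_ : Module R X) (_ : IsScalarTower Λ R X)
      (πE : R →ₐ[Λ] Λ) (t : G → R) (u : R) (ρ : G →* M₂ R) (Φ : M₂ R →ₐ[R] Module.End R X),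
      (∀ (g : G) (v : X), t g • v = g • v + χ g • g⁻¹ • v) ∧
      (∀ g, πE (t g) = (rE g).trace) ∧
      Algebra.adjoin Λ (Set.range t) = ⊤ ∧
      (∀ a : R, (∀ v : X, a • v = 0) → πE a = 0 → a = 0) ∧
      (∀ g, IsNilpotent (t g - algebraMap Λ R (θ g))) ∧
      u * xF t (algebraMap Λ R i2) c₀ σ₀ τ₀ = 1 ∧
      (∀ g, ρ g = rhoMat t (algebraMap Λ R i2) c₀ σ₀ τ₀ u g) ∧
      (∀ g, (ρ g).trace = t g) ∧ (∀ g, (ρ g).det = algebraMap Λ R (χ g)) ∧
      (∀ (g : G) (v : X), Φ (ρ g) v = g • v) ∧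
      (∀ (g : G) (a : R) (v : X), g • a • v = a • g • v) ∧
      (Finite X → Finite Λ → Finite R) := by
  have hgT : ∀ g h : G, DistribMulAction.toModuleEnd Λ X h * tOp X χ g =
      tOp X χ g * DistribMulAction.toModuleEnd Λ X h := fun g h =>
    LinearMap.ext fun v => hcen g h v
  have hcomm : ∀ g h : G, tOp X χ g * tOp X χ h = tOp X χ h * tOp X χ g := by
    intro g h
    show (DistribMulAction.toModuleEnd Λ X g + χ g • DistribMulAction.toModuleEnd Λ X g⁻¹) *
      tOp X χ h = tOp X χ h *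
      (DistribMulAction.toModuleEnd Λ X g + χ g • DistribMulAction.toModuleEnd Λ X g⁻¹)
    rw [add_mul, mul_add, smul_mul_assoc, mul_smul_comm, hgT, hgT]
  let T : G → Module.End Λ X × Λ := fun g => (tOp X χ g, (rE g).trace)
  set 𝔄 : Subalgebra Λ (Module.End Λ X × Λ) := Algebra.adjoin Λ (Set.range T) with h𝔄
  have hc : ∀ x ∈ Set.range T, ∀ y ∈ Set.range T, x * y = y * x := by
    rintro _ ⟨g, rfl⟩ _ ⟨h, rfl⟩
    exact Prod.ext (hcomm g h) (mul_comm _ _)
  letI instC : CommRing 𝔄 := Algebra.adjoinCommRingOfComm Λ hc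
  let fX : 𝔄 →ₐ[Λ] Module.End Λ X := (AlgHom.fst Λ (Module.End Λ X) Λ).comp 𝔄.val
  let πE : 𝔄 →ₐ[Λ] Λ := (AlgHom.snd Λ (Module.End Λ X) Λ).comp 𝔄.val
  letI iMX : Module 𝔄 X := Module.compHom X (fX : 𝔄 →+* Module.End Λ X)
  have hsmX : ∀ (a : 𝔄) (v : X), a • v = (a : Module.End Λ X × Λ).1 v := fun _ _ => rfl
  haveI iTX : IsScalarTower Λ 𝔄 X := ⟨fun c a v => by
    rw [hsmX, hsmX]; rfl⟩
  let t : G → 𝔄 := fun g => ⟨T g, Algebra.subset_adjoin ⟨g, rfl⟩⟩
  have hgen : Algebra.adjoin Λ (Set.range t) = ⊤ := by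
    have h1 : (Algebra.adjoin Λ (Set.range t)).map 𝔄.val = 𝔄 := by
      rw [AlgHom.map_adjoin, ← Set.range_comp]
      rfl
    apply Subalgebra.map_injective (f := 𝔄.val) Subtype.val_injective
    rw [h1, Algebra.map_top, Subalgebra.range_val]
  have hjf : ∀ a : 𝔄, (∀ v : X, a • v = 0) → πE a = 0 → a = 0 := fun a ha hE =>
    Subtype.ext (Prod.ext (LinearMap.ext ha) hE)
  have hnil' : ∀ g, IsNilpotent (t g - algebraMap Λ 𝔄 (θ g)) := by
    intro g
    obtain ⟨n, hn⟩ := hnil g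
    obtain ⟨n', hn'⟩ := hnilE g
    refine ⟨n + n', Subtype.ext (Prod.ext ?_ ?_)⟩
    · show (tOp X χ g - algebraMap Λ (Module.End Λ X) (θ g)) ^ (n + n') = 0
      rw [pow_add, hn, zero_mul]
    · show ((rE g).trace - θ g) ^ (n + n') = 0
      rw [pow_add, hn', mul_zero]
  -- `G` commutes with `𝔄` on `X`
  have hlin : ∀ (g : G) (a : 𝔄) (v : X), g • a • v = a • g • v := by
    intro g a v
    obtain ⟨a, ha⟩ := a
    show g • (a.1 v) = a.1 (g • v)
    induction ha using Algebra.adjoin_induction generalizing v with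
    | mem x hx =>
      obtain ⟨i, rfl⟩ := hx
      exact LinearMap.congr_fun (hgT i g) v
    | algebraMap c =>
      show g • (c • v) = c • (g • v)
      exact smul_comm g c v
    | add x y _ _ hx hy =>
      show g • (x.1 v + y.1 v) = x.1 (g • v) + y.1 (g • v)
      rw [smul_add, hx, hy]
    | mul x y _ _ hx hy =>
      show g • (x.1 (y.1 v)) = x.1 (y.1 (g • v))
      rw [hx, hy]
  haveI iSX : SMulCommClass G 𝔄 X := ⟨hlin⟩
  -- the module `W = X × Λ²`
  letI iME : Module 𝔄 (EM rE) := Module.compHom (EM rE) (πE : 𝔄 →+* Λ)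
  have hsmE : ∀ (a : 𝔄) (v : EM rE), a • v = πE a • v := fun _ _ => rfl
  haveI iSE : SMulCommClass G 𝔄 (EM rE) := ⟨fun g a v => by
    rw [hsmE, hsmE]; exact smul_comm g (πE a) v⟩
  let c : G →* 𝔄 := (algebraMap Λ 𝔄 : Λ →* 𝔄).comp χ
  have hcX : ∀ (g : G) (v : X), c g • v = χ g • v := fun g v => algebraMap_smul 𝔄 (χ g) v
  have hcE : ∀ (g : G) (v : EM rE), c g • v = χ g • v := fun g v => by
    rw [hsmE]
    show πE (algebraMap Λ 𝔄 (χ g)) • v = χ g • v
    rw [AlgHom.commutes]; rfl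
  have hsX : ∀ (g : G) (w : X), g • w + c g • g⁻¹ • w = t g • w := fun g w => by
    rw [hcX]; rfl
  have hsW : ∀ (g : G) (w : X × EM rE), g • w + c g • g⁻¹ • w = t g • w := by
    rintro g ⟨x, e⟩
    refine Prod.ext (hsX g x) ?_
    show g • e + c g • g⁻¹ • e = t g • e
    rw [hcE, EM.spec rE χ hdetE, hsmE]
    rfl
  have hfW : ∀ a : 𝔄, (∀ w : X × EM rE, a • w = 0) → a = 0 := by
    intro a ha
    refine hjf a (fun v => congrArg Prod.fst (ha (v, 0))) ?_
    have h1 := congrArg Prod.snd (ha (0, (fun _ => 1 : Fin 2 → Λ)))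
    have h3 : πE a • (fun _ => 1 : Fin 2 → Λ) = 0 := h1
    have h4 := congrFun h3 0
    simpa using h4
  have hps : IsPseudo t c := isPseudo_of_spec_module hsW hfW
  have hunit : IsUnit (xF t (algebraMap Λ 𝔄 i2) c₀ σ₀ τ₀) := by
    have h1 := (xF_sub_mem_nilradical t θ hnil' i2 c₀ σ₀ τ₀).isUnit_add_left_of_commute
      (hu.map (algebraMap Λ 𝔄)) (Commute.all _ _)
    simpa using h1
  obtain ⟨u, hu'⟩ := hunit.exists_left_inv
  have h2' : algebraMap Λ 𝔄 i2 * 2 = 1 := by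
    rw [← map_ofNat (algebraMap Λ 𝔄) 2, ← map_mul, h2, map_one]
  have hcc' : c c₀ = -1 := by
    show algebraMap Λ 𝔄 (χ c₀) = -1
    rw [hcc, map_neg, map_one]
  obtain ⟨ρ, -, hρ, htr, hdet, -⟩ := exists_rep hps h2' hc₀ hcc' σ₀ τ₀ u hu'
  obtain ⟨Φ, hΦ⟩ := exists_phi hsX hps h2' hc₀ hcc' hu'
  refine ⟨𝔄, instC, inferInstance, iMX, iTX, πE, t, u, ρ, Φ, fun g v => (hsX g v).symm.trans
    (by rw [hcX]), fun g => rfl, hgen, hjf, hnil', hu', hρ, htr, hdet,
    fun g v => by rw [hρ, hΦ], hlin, ?_⟩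
  intro hX hΛ
  have : Function.Injective (fun x : 𝔄 =>
      ((((x : Module.End Λ X × Λ).1 : X → X), (x : Module.End Λ X × Λ).2) : (X → X) × Λ)) := by
    intro x y hxy
    have h1 := congrArg Prod.fst hxy
    have h3 := congrArg Prod.snd hxy
    exact Subtype.ext (Prod.ext (LinearMap.ext fun v => congrFun h1 v) h3)
  exact Finite.of_injective _ this

end Abs

end Fermat.Agent.ML.Rho
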