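import Fermat.Agent.ML.Main.Eig

/-!
# ML / Rho / PP : the point `x_W` of the joint ring : `PP = ker πE`   (the END of COUNT-LIFT)

* `pp_le_of_gen` (pure algebra) : `ker π0 ≤ 𝔞 ⊔ (y') ⊔ (p)`, `𝔞 ≤ ker πE`, `π0 (y' i) = 0`  ⟹  `ker πE ≤ 𝔞 ⊔ (y)`,
  `y i := y' i - [πE (y' i)]`.     (WARNING: false without `𝔞 ≤ ker πE`.)
* `ker0_le_of_gen` : the same generators `y` still generate `ker π0` together with `p` and `𝔞`.
* `IsRhoK.trace_smul` : `tr ρ(g) x = g x + χ(g) g⁻¹ x`.
* `IsRhoK.isEig_of_pp` : a class killed by `ker πE` is a Galois eigenclass `IsEig (tr rE)`.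
* `IsRhoK.isEig_of_gen` : the combination : a class killed by the `y i` is a Galois eigenclass.
-/

set_option autoImplicit false
set_option linter.unusedSectionVars false
set_option linter.style.haveILetI false

noncomputable section

open ModularCurve Module

namespace Fermat.Agent.ML.Rho

open Fermat.Agent.GAL Fermat.Agent.RIB Fermat.Agent.RIB.Rho

local notation "Qbar" => AlgebraicClosure ℚ
local notation "GQ" => (AlgebraicClosure ℚ ≃ₐ[ℚ] AlgebraicClosure ℚ)
local notation "M₂" => Matrix (Fin 2) (Fin 2)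

section Alg

variable {p m : ℕ} [NeZero m] {R : Type*} [CommRing R] [Algebra (ZMod m) R]

/-- the shifted generators. -/
def shiftE (πE : R →ₐ[ZMod m] ZMod m) {ι : Type*} (y' : ι → R) (i : ι) : R :=
  y' i - algebraMap (ZMod m) R (πE (y' i))

theorem piE_shiftE (πE : R →ₐ[ZMod m] ZMod m) {ι : Type*} (y' : ι → R) (i : ι) :
    πE (shiftE πE y' i) = 0 := by
  rw [shiftE, map_sub, AlgHom.commutes]
  exact sub_self _

/-- an element of `ZMod m` which vanishes modulo `p` is a multiple of `p`. -/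
theorem exists_eq_mul_of_castHom_eq_zero (hpm : p ∣ m) (x : ZMod m)
    (hx : ZMod.castHom hpm (ZMod p) x = 0) : ∃ c : ZMod m, x = (p : ZMod m) * c := by
  rw [← ZMod.natCast_zmod_val x, map_natCast, ZMod.natCast_eq_zero_iff] at hx
  obtain ⟨c, hc⟩ := hx
  exact ⟨(c : ZMod m), by rw [← Nat.cast_mul, ← hc, ZMod.natCast_zmod_val]⟩

/-- `y' i ∈ (y) ⊔ (p)`. -/
theorem mem_shiftE_sup (hpm : p ∣ m) (πE : R →ₐ[ZMod m] ZMod m) {ι : Type*} (y' : ι → R)
    (hy' : ∀ i, ZMod.castHom hpm (ZMod p) (πE (y' i)) = 0) (i : ι) :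
    y' i ∈ Ideal.span (Set.range (shiftE πE y')) ⊔ Ideal.span {(p : R)} := by
  obtain ⟨c, hc⟩ := exists_eq_mul_of_castHom_eq_zero hpm _ (hy' i)
  have e : y' i = shiftE πE y' i + algebraMap (ZMod m) R c * (p : R) := by
    rw [shiftE, hc, map_mul, map_natCast]
    ring
  rw [e]
  exact Submodule.add_mem_sup (Ideal.subset_span ⟨i, rfl⟩)
    (Ideal.mul_mem_left _ _ (Ideal.mem_span_singleton_self _))

/-- the shifted generators generate `ker π0` as well. -/
theorem ker0_le_of_gen (hpm : p ∣ m) (πE : R →ₐ[ZMod m] ZMod m) (𝔞 : Ideal R) {ι : Type*}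
    (y' : ι → R) (hy' : ∀ i, ZMod.castHom hpm (ZMod p) (πE (y' i)) = 0) :
    𝔞 ⊔ Ideal.span (Set.range y') ⊔ Ideal.span {(p : R)}
      ≤ 𝔞 ⊔ Ideal.span (Set.range (shiftE πE y')) ⊔ Ideal.span {(p : R)} := by
  refine sup_le (sup_le (le_sup_of_le_left le_sup_left) ?_) le_sup_right
  rw [Ideal.span_le]
  rintro _ ⟨i, rfl⟩
  have h := mem_shiftE_sup hpm πE y' hy' i
  rw [sup_assoc]
  exact (le_sup_right : _ ≤ 𝔞 ⊔ _) h

/-- **[PP]** : generators of `ker π0` modulo `(𝔞, p)` give generators of `ker πE` modulo `𝔞`, if `𝔞 ≤ ker πE`. -/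
theorem pp_le_of_gen {k : ℕ} (hm : m = p ^ k) (hpm : p ∣ m) (πE : R →ₐ[ZMod m] ZMod m)
    (𝔞 : Ideal R) (h𝔞 : ∀ a ∈ 𝔞, πE a = 0) {ι : Type*} (y' : ι → R)
    (hy' : ∀ i, ZMod.castHom hpm (ZMod p) (πE (y' i)) = 0)
    (hgen : ∀ a : R, ZMod.castHom hpm (ZMod p) (πE a) = 0 →
      a ∈ 𝔞 ⊔ Ideal.span (Set.range y') ⊔ Ideal.span {(p : R)})
    (a : R) (ha : πE a = 0) : a ∈ 𝔞 ⊔ Ideal.span (Set.range (shiftE πE y')) := by
  set I : Ideal R := 𝔞 ⊔ Ideal.span (Set.range (shiftE πE y')) with hI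
  have hIE : ∀ b ∈ I, πE b = 0 := by
    have : I ≤ RingHom.ker (πE : R →+* ZMod m) := by
      refine sup_le (fun b hb => h𝔞 b hb) ?_
      rw [Ideal.span_le]
      rintro _ ⟨i, rfl⟩
      exact piE_shiftE πE y' i
    exact fun b hb => this hb
  -- one step
  have step : ∀ b : R, πE b = 0 → ∃ i ∈ I, ∃ c : R, πE c = 0 ∧ b = i + (p : R) * c := by
    intro b hb
    have h1 := ker0_le_of_gen hpm πE 𝔞 y' hy' (hgen b (by rw [hb, map_zero]))
    obtain ⟨i, hi, s, hs, rfl⟩ := Submodule.mem_sup.1 h1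
    obtain ⟨r, rfl⟩ := Ideal.mem_span_singleton'.1 hs
    refine ⟨i, hi, r - algebraMap (ZMod m) R (πE r), by
      rw [map_sub, AlgHom.commutes]; exact sub_self _, ?_⟩
    have h2 : πE r * (p : ZMod m) = 0 := by
      have := hb
      rwa [map_add, hIE i hi, zero_add, map_mul, map_natCast] at this
    have h3 : algebraMap (ZMod m) R (πE r) * (p : R) = 0 := by
      have := congrArg (algebraMap (ZMod m) R) h2
      rwa [map_mul, map_natCast, map_zero] at this
    linear_combination h3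
  have iter : ∀ j : ℕ, ∃ i ∈ I, ∃ c : R, πE c = 0 ∧ a = i + (p : R) ^ j * c := by
    intro j
    induction j with
    | zero => exact ⟨0, I.zero_mem, a, ha, by rw [pow_zero, one_mul, zero_add]⟩
    | succ j ih =>
      obtain ⟨i, hi, c, hc, e⟩ := ih
      obtain ⟨i', hi', c', hc', e'⟩ := step c hc
      refine ⟨i + (p : R) ^ j * i', I.add_mem hi (I.mul_mem_left _ hi'), c', hc', ?_⟩
      rw [e, e']
      ring
  obtain ⟨i, hi, c, -, e⟩ := iter k
  have hp0 : (p : R) ^ k = 0 := by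
    have : ((p ^ k : ℕ) : ZMod m) = 0 := by rw [← hm]; exact ZMod.natCast_self m
    have h := congrArg (algebraMap (ZMod m) R) this
    rwa [map_natCast, map_zero, Nat.cast_pow] at h
  rw [e, hp0, zero_mul, add_zero]
  exact hi

end Alg

section Eig

variable {L m : ℕ} [NeZero L] [NeZero m] {X : AddSubgroup (JZero L)} {rE : GQ →* M₂ (ZMod m)}
  {R : Type} [CommRing R] [Algebra (ZMod m) R] [Module R ↥X] {πE : R →ₐ[ZMod m] ZMod m}
  {ρ : GQ →* M₂ R} {Φ : M₂ R →ₐ[R] Module.End R ↥X}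

/-- `M + det M • M' = tr M • 1` if `M * M' = 1`. -/
theorem add_det_smul_eq_trace {S : Type*} [CommRing S] (M M' : M₂ S) (h : M * M' = 1) :
    M + M.det • M' = M.trace • (1 : M₂ S) := by
  have h1 : M.adjugate = M.det • M' := by
    calc M.adjugate = M.adjugate * (M * M') := by rw [h, mul_one]
      _ = (M.adjugate * M) * M' := by rw [mul_assoc]
      _ = M.det • M' := by rw [Matrix.adjugate_mul, Matrix.smul_mul, one_mul]
  rw [← h1, Matrix.adjugate_fin_two]
  ext i j
  fin_cases i <;> fin_cases j <;> simp [Matrix.trace_fin_two, add_comm]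

/-- an integer acts on `m`-torsion through its class modulo `m`. -/
theorem zsmul_eq_val_nsmul {Y : Type*} [AddCommGroup Y] {z : Y} (hz : m • z = 0) (a : ℤ)
    (c : ZMod m) (h : (a : ZMod m) = c) : a • z = c.val • z := by
  have h1 : ((a - (c.val : ℤ) : ℤ) : ZMod m) = 0 := by
    rw [Int.cast_sub, h, Int.cast_natCast, ZMod.natCast_zmod_val, sub_self]
  obtain ⟨d, hd⟩ := (ZMod.intCast_zmod_eq_zero_iff_dvd _ _).1 h1
  have h2 : a = (c.val : ℤ) + (m : ℤ) * d := by rw [← hd]; ring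
  rw [h2, add_zsmul, natCast_zsmul, mul_comm, mul_zsmul, natCast_zsmul, hz, smul_zero, add_zero]

namespace IsRhoK

variable (H : IsRhoK L m X rE πE ρ Φ)

include H

/-- `X` is killed by `m`. -/
theorem m_nsmul_eq_zero (x : ↥X) : m • (x : JZero L) = 0 := by
  have h := H.alg (-1) x
  rw [map_neg, map_one, neg_smul, one_smul, AddSubgroup.coe_neg] at h
  have hv : (-1 : ZMod m).val + 1 = m ∨ m = 1 := by
    rcases Nat.lt_or_ge 1 m with h1 | h1
    · left
      haveI : Fact (1 < m) := ⟨h1⟩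
      have := ZMod.neg_val (1 : ZMod m)
      rw [if_neg one_ne_zero, ZMod.val_one] at this
      omega
    · right
      have := Nat.pos_of_ne_zero (NeZero.ne m)
      omega
  rcases hv with hv | hv
  · rw [← hv, add_nsmul, one_nsmul, ← h, neg_add_cancel]
  · have h0 : (-1 : ZMod m).val = 0 := by
      subst hv
      rfl
    rw [h0, zero_nsmul, neg_eq_zero] at h
    rw [h, smul_zero]

/-- **the trace relation** : `tr ρ(g) x = g x + χ(g) g⁻¹ x`. -/
theorem trace_smul (g : GQ) (x : ↥X) :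
    (((ρ g).trace • x : ↥X) : JZero L)
      = g • (x : JZero L) + (chiM m g).val • g⁻¹ • (x : JZero L) := by
  have h1 : ρ g + (ρ g).det • ρ g⁻¹ = (ρ g).trace • (1 : M₂ R) :=
    add_det_smul_eq_trace _ _ (by rw [← map_mul, mul_inv_cancel, map_one])
  have h2 := congrArg (fun M => (Φ M x : ↥X)) h1
  simp only [map_add, map_smul, map_one, LinearMap.add_apply, LinearMap.smul_apply,
    Module.End.one_apply] at h2
  rw [← h2, AddSubgroup.coe_add, H.act, H.det, H.alg, H.act]

/-- **[EIG]** a class killed by `PP = ker πE` is a Galois eigenclass. -/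
theorem isEig_of_pp (x : ↥X) (hx : ∀ a : R, πE a = 0 → a • x = 0) :
    IsEig (fun g => (rE g).trace) (x : JZero L) := by
  refine ⟨H.m_nsmul_eq_zero x, fun h g a c ha hc => ?_⟩
  set y : ↥X := Φ (ρ h) x with hy
  have hyc : (y : JZero L) = h • (x : JZero L) := H.act h x
  have hyk : ∀ b : R, πE b = 0 → b • y = 0 := fun b hb => by
    rw [hy, ← map_smul, hx b hb, map_zero]
  have h1 : πE ((ρ g).trace - algebraMap (ZMod m) R (rE g).trace) = 0 := by
    rw [map_sub, AlgHom.commutes, ← H.toE g, Matrix.trace_fin_two, Matrix.trace_fin_two, map_add]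
    simp
  have h2 : (ρ g).trace • y = algebraMap (ZMod m) R (rE g).trace • y := by
    have := hyk _ h1
    rwa [sub_smul, sub_eq_zero] at this
  have h3 := H.trace_smul g y
  rw [h2, H.alg, hyc] at h3
  have hm1 : m • (g⁻¹ • h • (x : JZero L)) = 0 := by
    rw [← gal_nsmul, ← gal_nsmul, H.m_nsmul_eq_zero x, gal_zero, gal_zero]
  have hm2 : m • (h • (x : JZero L)) = 0 := by
    rw [← gal_nsmul, H.m_nsmul_eq_zero x, gal_zero]
  rw [zsmul_eq_val_nsmul hm1 a _ ha, zsmul_eq_val_nsmul hm2 c _ hc]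
  exact h3.symm

/-- **[END]** : generators `y'` of `ker π0` modulo `p`; a class killed by the `y' i - [πE (y' i)]` is a Galois eigenclass. -/
theorem isEig_of_gen {p k : ℕ} (hm : m = p ^ k) (hpm : p ∣ m) {ι : Type*} (y' : ι → R)
    (hy' : ∀ i, ZMod.castHom hpm (ZMod p) (πE (y' i)) = 0)
    (hgen : ∀ a : R, ZMod.castHom hpm (ZMod p) (πE a) = 0 →
      a ∈ Ideal.span (Set.range y') ⊔ Ideal.span {(p : R)})
    (x : ↥X) (hx : ∀ i, shiftE πE y' i • x = 0) :
    IsEig (fun g => (rE g).trace) (x : JZero L) := by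
  refine H.isEig_of_pp x fun a ha => ?_
  have h1 := pp_le_of_gen hm hpm πE ⊥ (fun b hb => by rw [(Submodule.mem_bot R).1 hb, map_zero]) y'
    hy' (fun b hb => by rw [bot_sup_eq]; exact hgen b hb) a ha
  rw [bot_sup_eq] at h1
  have h2 : Ideal.span (Set.range (shiftE πE y')) ≤ (Submodule.span R {x}).annihilator := by
    rw [Ideal.span_le]
    rintro _ ⟨i, rfl⟩
    rw [SetLike.mem_coe, Submodule.mem_annihilator_span_singleton]
    exact hx i
  exact (Submodule.mem_annihilator_span_singleton _ _).1 (h2 h1)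

end IsRhoK

end Eig

end Fermat.Agent.ML.Rho
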